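import Fermat.Agent.Carayol.Omega.Field
import Fermat.Agent.Carayol.Tate
import Fermat.Agent.EC.Torsion.Count
import Mathlib.FieldTheory.IsAlgClosed.AlgebraicClosure

/-!
# The Tate normal form at a label and its torsion over the field of level `N`
-/

set_option autoImplicit false
set_option linter.unusedSectionVars false

noncomputable section

open UpperHalfPlane hiding I
open Complex Function
open scoped MatrixGroups

namespace Fermat.Agent.Carayol.Omega

open Fermat.Agent.ModFun Fermat.Agent.Mazur.Small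
open WeierstrassCurve.Affine (Point)

/-- Transport of points along an equality of curves. -/
def castPoint {F : Type*} [Field F] [DecidableEq F] {W W' : WeierstrassCurve F} (h : W = W') :
    W.toAffine.Point ≃+ W'.toAffine.Point := by
  subst h; exact AddEquiv.refl _

theorem castPoint_some {F : Type*} [Field F] [DecidableEq F] {W W' : WeierstrassCurve F}
    (h : W = W') {x y : F} (hn : W.toAffine.Nonsingular x y) :
    ∃ h', castPoint h (.some x y hn) = (.some x y h' : W'.toAffine.Point) := by
  subst h; exact ⟨hn, rfl⟩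

namespace Setup

variable {n : ℕ} [NeZero n] {K : Type*} [Field K] [CharZero K] (E : Setup n K)
  (k : Type*) [Field k] [Algebra k K]

attribute [local irreducible] Setup.toSer

/-- Functions whose expansion lies in the field. -/
def fieldFun : Subring E.R := (E.field k).toSubfield.toSubring.comap E.toSer

theorem gen_mem_fieldFun {g : Gen n} (hg : g.Good) : E.gen g ∈ E.fieldFun k := E.genS_mem hg

/-- Expansion into the field. -/
def toField : E.fieldFun k →+* E.field k where
  toFun f := ⟨E.toSer f, f.2⟩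
  map_one' := Subtype.ext (map_one E.toSer)
  map_mul' f g := Subtype.ext (map_mul E.toSer (f : E.R) (g : E.R))
  map_zero' := Subtype.ext (map_zero E.toSer)
  map_add' f g := Subtype.ext (map_add E.toSer (f : E.R) (g : E.R))

theorem toField_injective : Function.Injective (E.toField k) := fun f g h =>
  Subtype.ext (E.toSer_injective (congrArg Subtype.val h : E.toSer (f : E.R) = E.toSer (g : E.R)))

/-- The Tate normal form at a label, as a curve over functions. -/
def tateFun {P : ZMod n × ZMod n} (hP : GoodPt P) : WeierstrassCurve (E.fieldFun k) :=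
  Carayol.tateCurve ⟨E.rTB P, E.gen_mem_fieldFun k (g := .tb P) hP⟩
    ⟨E.rTC P, E.gen_mem_fieldFun k (g := .tc P) hP⟩

/-- The parameter `b` at a label, in the field. -/
def fTB {P : ZMod n × ZMod n} (hP : GoodPt P) : E.field k := E.fgen k (g := .tb P) hP

/-- The parameter `c` at a label, in the field. -/
def fTC {P : ZMod n × ZMod n} (hP : GoodPt P) : E.field k := E.fgen k (g := .tc P) hP

theorem map_tateFun {P : ZMod n × ZMod n} (hP : GoodPt P) :
    (E.tateFun k hP).map (E.toField k) = Carayol.tateCurve (E.fTB k hP) (E.fTC k hP) :=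
  (Carayol.tateCurve_map _ _ _)

variable [DecidableEq ℂ]

theorem map_tateFun_ev {P : ZMod n × ZMod n} (hP : GoodPt P) (τ : ℍ) :
    (E.tateFun k hP).map ((E.ev τ).comp (E.fieldFun k).subtype) =
      tateChange (curveAt τ) (ev_rA3_rA2_ne hP τ).1 (ev_rA3_rA2_ne hP τ).2 • curveAt τ := by
  obtain ⟨h, -⟩ := torsHom_apply τ hP.ne_zero
  obtain ⟨-, -, gB, gC, -⟩ := E.map_gens (E.ev τ) hP
  rw [E.map_curve_ev] at gB gC
  rw [tateChange_smul _ _ _ h.1, tateFun, Carayol.tateCurve_map]
  show Carayol.tateCurve (E.ev τ (E.rTB P)) (E.ev τ (E.rTC P)) = _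
  rw [gB, gC]
  rfl

theorem isElliptic_curveAt (τ : ℍ) : (curveAt τ).IsElliptic := ⟨(curveAt_Δ_ne τ).isUnit⟩

/-- The pointwise homomorphism into the Tate normal form. -/
def tatePointwise {P : ZMod n × ZMod n} (hP : GoodPt P) (τ : ℍ) :
    ZMod n × ZMod n →+
      ((E.tateFun k hP).map ((E.ev τ).comp (E.fieldFun k).subtype)).toAffine.Point :=
  haveI := isElliptic_curveAt τ
  ((castPoint (E.map_tateFun_ev k hP τ).symm).toAddMonoidHom).comp
    ((toTate (curveAt τ) (ev_rA3_rA2_ne hP τ).1 (ev_rA3_rA2_ne hP τ).2).toAddMonoidHom.comp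
      (torsHom τ))

theorem tatePointwise_injective {P : ZMod n × ZMod n} (hP : GoodPt P) (τ : ℍ) :
    Function.Injective (E.tatePointwise k hP τ) :=
  haveI := isElliptic_curveAt τ
  (castPoint (E.map_tateFun_ev k hP τ).symm).injective.comp
    ((toTate (curveAt τ) (ev_rA3_rA2_ne hP τ).1 (ev_rA3_rA2_ne hP τ).2).injective.comp
      (torsHom_injective τ))

/-- The family of torsion of the Tate normal form at `P`. -/
def tateFamily {P : ZMod n × ZMod n} (hP : GoodPt P) :
    PointFamily (E.tateFun k hP) (ZMod n × ZMod n) ℍ ℂ where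
  X v := ⟨E.rTX P v, E.gen_mem_fieldFun k (g := .tx P v) hP⟩
  Y v := ⟨E.rTY P v, E.gen_mem_fieldFun k (g := .ty P v) hP⟩
  ev τ := (E.ev τ).comp (E.fieldFun k).subtype
  separates _ h := Subtype.ext (E.separates h)
  hom τ := E.tatePointwise k hP τ
  hom_injective τ := E.tatePointwise_injective k hP τ
  hom_apply τ v hv := by
    have := isElliptic_curveAt τ
    obtain ⟨h, e⟩ := torsHom_apply τ hv
    obtain ⟨h', e'⟩ := toTate_some (curveAt τ) (ev_rA3_rA2_ne hP τ).1 (ev_rA3_rA2_ne hP τ).2 h
    obtain ⟨h'', e''⟩ := castPoint_some (E.map_tateFun_ev k hP τ).symm h'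
    refine Carayol.exists_some_eq (h := h'') ?_ ?_ ?_
    · show castPoint (E.map_tateFun_ev k hP τ).symm
        (toTate (curveAt τ) (ev_rA3_rA2_ne hP τ).1 (ev_rA3_rA2_ne hP τ).2 (torsHom τ v)) = _
      rw [e, e', e'']
    · have := ((E.map_gens (E.ev τ) hP).2.2.2.2 v).1
      rw [E.map_curve_ev] at this
      exact this.symm
    · have := ((E.map_gens (E.ev τ) hP).2.2.2.2 v).2
      rw [E.map_curve_ev] at this
      exact this.symm
  Δ_ne τ h := by
    have := isElliptic_curveAt τ
    have e := congrArg WeierstrassCurve.Δ (E.map_tateFun_ev k hP τ)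
    rw [WeierstrassCurve.map_Δ, h, WeierstrassCurve.variableChange_Δ] at e
    exact mul_ne_zero (pow_ne_zero _ (Units.ne_zero _)) (curveAt_Δ_ne τ) e.symm
  nonempty := ⟨UpperHalfPlane.I⟩

variable [DecidableEq (E.field k)]

/-- Torsion of the Tate normal form at `P`, over the field. -/
def tateHom {P : ZMod n × ZMod n} (hP : GoodPt P) :
    ZMod n × ZMod n →+ (Carayol.tateCurve (E.fTB k hP) (E.fTC k hP)).toAffine.Point :=
  ((castPoint (E.map_tateFun k hP)).toAddMonoidHom).comp
    ((E.tateFamily k hP).pointHom (E.toField_injective k))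

theorem tateHom_injective {P : ZMod n × ZMod n} (hP : GoodPt P) :
    Function.Injective (E.tateHom k hP) :=
  (castPoint (E.map_tateFun k hP)).injective.comp
    ((E.tateFamily k hP).pointHom_injective (E.toField_injective k))

theorem tateHom_apply {P v : ZMod n × ZMod n} (hP : GoodPt P) (hv : v ≠ 0) :
    ∃ h, E.tateHom k hP v
      = .some (E.fgen k (g := .tx P v) hP) (E.fgen k (g := .ty P v) hP) h := by
  obtain ⟨h, e⟩ := castPoint_some (E.map_tateFun k hP)
    ((E.tateFamily k hP).nonsingular (E.toField_injective k) hv)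
  exact ⟨h, (congrArg (castPoint (E.map_tateFun k hP))
    ((E.tateFamily k hP).point_of_ne (E.toField_injective k) hv)).trans e⟩

theorem fTB_ne_zero {P : ZMod n × ZMod n} (hP : GoodPt P) : E.fTB k hP ≠ 0 := by
  intro h
  have h1 : E.rTB P = 0 := E.toSer_injective (by rw [map_zero]; exact congrArg Subtype.val h)
  have hu : IsUnit (E.rTB P) :=
    ((E.isUnit_rA2 hP).pow 3).neg.mul ((E.isUnit_rA3 hP).ringInverse.pow 2)
  rw [h1] at hu
  exact not_isUnit_zero hu

theorem tateHom_self {P : ZMod n × ZMod n} (hP : GoodPt P) :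
    E.tateHom k hP P = Carayol.tatePt (c := E.fTC k hP) (E.fTB_ne_zero k hP) := by
  obtain ⟨h, e⟩ := E.tateHom_apply k hP hP.ne_zero
  rw [e, Carayol.tatePt]
  simp only [Point.some.injEq]
  constructor <;> refine Subtype.ext ?_
  · show E.toSer (E.rTX P P) = 0
    simp [rTX]
  · show E.toSer (E.rTY P P) = 0
    simp [rTY]

theorem j_relation {P : ZMod n × ZMod n} (hP : GoodPt P) :
    (Carayol.tateCurve (E.fTB k hP) (E.fTC k hP)).c₄ ^ 3
      = E.fj k * (Carayol.tateCurve (E.fTB k hP) (E.fTC k hP)).Δ := by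
  have hj : E.rJ ∈ E.fieldFun k := E.gen_mem_fieldFun k (g := .jay) trivial
  have key : (E.tateFun k hP).c₄ ^ 3 = ⟨E.rJ, hj⟩ * (E.tateFun k hP).Δ := by
    refine (E.tateFamily k hP).eq_of_forall fun τ => ?_
    show ((E.ev τ).comp (E.fieldFun k).subtype) _ = ((E.ev τ).comp (E.fieldFun k).subtype) _
    rw [map_pow, map_mul, ← WeierstrassCurve.map_c₄, ← WeierstrassCurve.map_Δ, E.map_tateFun_ev,
      WeierstrassCurve.variableChange_c₄, WeierstrassCurve.variableChange_Δ]
    have hD := ModularForm.discriminant_eq_E₄_cube_sub_E₆_sq τ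
    have hc := (curveAt τ).c_relation
    have e4 : (curveAt τ).c₄ = ModularForm.E₄ τ := by
      simp [WeierstrassCurve.c₄, WeierstrassCurve.b₂, WeierstrassCurve.b₄, curveAt, fA]; ring
    have e6 : (curveAt τ).c₆ = -ModularForm.E₆ τ := by
      simp [WeierstrassCurve.c₆, WeierstrassCurve.b₂, WeierstrassCurve.b₄, WeierstrassCurve.b₆,
        curveAt, fB]; ring
    rw [e4, e6] at hc
    have e : (curveAt τ).Δ = ModularForm.discriminant τ := by
      rw [hD]; linear_combination (1 / 1728 : ℂ) * hc
    rw [e4, e, mul_pow, ← pow_mul]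
    show _ = jH τ * _
    rw [show ModularForm.E₄ τ ^ 3 = jH τ * ModularForm.discriminant τ from
      (jH_mul_discriminant τ).symm]
    ring
  have := congrArg (E.toField k) key
  rw [map_pow, map_mul, ← WeierstrassCurve.map_c₄, ← WeierstrassCurve.map_Δ, E.map_tateFun] at this
  exact this

theorem tateΔ_ne_zero {P : ZMod n × ZMod n} (hP : GoodPt P) :
    (Carayol.tateCurve (E.fTB k hP) (E.fTC k hP)).Δ ≠ 0 := by
  rw [← E.map_tateFun, WeierstrassCurve.map_Δ]
  exact (E.tateFamily k hP).map_Δ_ne (E.toField_injective k)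

/-- A point killed by `m ∣ n` is the image of a label killed by `m`. -/
theorem exists_label {P : ZMod n × ZMod n} (hP : GoodPt P) {m : ℕ} (hm0 : m ≠ 0)
    (hcard : Nat.card {v : ZMod n × ZMod n // m • v = 0} = m ^ 2)
    {Q : (Carayol.tateCurve (E.fTB k hP) (E.fTC k hP)).toAffine.Point} (hQ : m • Q = 0) :
    ∃ v, m • v = 0 ∧ E.tateHom k hP v = Q := by
  classical
  have : CharZero (LaurentSeries K) :=
    charZero_of_injective_ringHom (f := (HahnSeries.C : K →+* LaurentSeries K)) (RingHom.injective _)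
  have : CharZero (E.field k) := (E.field k).toSubfield.subtype.charZero
  have : CharZero (AlgebraicClosure (E.field k)) :=
    charZero_of_injective_algebraMap (algebraMap (E.field k) _).injective
  let W := Carayol.tateCurve (E.fTB k hP) (E.fTC k hP)
  have : W.IsElliptic := ⟨(E.tateΔ_ne_zero k hP).isUnit⟩
  let W' := W.map (algebraMap (E.field k) (AlgebraicClosure (E.field k)))
  have hid : W.baseChange (E.field k) = W := by
    apply WeierstrassCurve.ext <;> simp [WeierstrassCurve.baseChange]
  let ψ : W.toAffine.Point →+ W'.toAffine.Point :=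
    (WeierstrassCurve.Affine.Point.map (W' := W)
      (Algebra.ofId (E.field k) (AlgebraicClosure (E.field k)))).comp
      (castPoint hid.symm).toAddMonoidHom
  have hψ : Function.Injective ψ :=
    (WeierstrassCurve.Affine.Point.map_injective _).comp (castPoint hid.symm).injective
  have hc : Nat.card {R : W'.toAffine.Point // m • R = 0} = m ^ 2 :=
    EC.Torsion.natCard_setOf_nsmul_eq_zero W'.toAffine (Nat.cast_ne_zero.mpr hm0)
  let Φ : {v : ZMod n × ZMod n // m • v = 0} → {R : W'.toAffine.Point // m • R = 0} := fun v =>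
    ⟨ψ (E.tateHom k hP v), by rw [← map_nsmul, ← map_nsmul, v.2, map_zero, map_zero]⟩
  have hΦ : Function.Injective Φ := fun a b h =>
    Subtype.ext (E.tateHom_injective k hP (hψ (congrArg Subtype.val h)))
  have : Finite {R : W'.toAffine.Point // m • R = 0} :=
    Nat.finite_of_card_ne_zero (by rw [hc]; positivity)
  have hbij := (Nat.bijective_iff_injective_and_card Φ).mpr ⟨hΦ, by rw [hc, hcard]⟩
  obtain ⟨v, hv⟩ := hbij.2 ⟨ψ Q, by rw [← map_nsmul, hQ, map_zero]⟩
  exact ⟨v, v.2, hψ (congrArg Subtype.val hv)⟩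

end Setup

end Fermat.Agent.Carayol.Omega
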