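import Fermat.Agent.Carayol.CuspEmb
import Fermat.Agent.Carayol.Omega.CuspBase
import Fermat.Agent.Carayol.Omega.Level

/-!
# The field of level `q n` embeds at the cusp into series over the coefficient ring

The Tate series of the torsion coordinates have coefficients in the ring fixed by the inertia
elements fixing `ζ`, except for their constant terms, which are in its field of fractions.
-/

set_option autoImplicit false
set_option linter.unusedSectionVars false

noncomputable section

open UpperHalfPlane hiding I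
open Complex Function
open scoped MatrixGroups

namespace Fermat.Agent.Carayol.Omega

open Fermat.Agent.ModFun Fermat.Agent.Arith
open ModularCurve (coeffMap qExpand jqModC)

/-- The algebra structure on Laurent series used for a general base. -/
abbrev serAlgOf (k : Type) [Field k] [Algebra k QBar] : Algebra k (LaurentSeries QBar) :=
  inferInstance

/-- The same structure for the field fixed by inertia. -/
abbrev serAlg (A : ValuationSubring QBar) : Algebra (inertiaField A) (LaurentSeries QBar) :=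
  serAlgOf (inertiaField A)

attribute [local instance 2000] serAlg

section Range

variable (A : ValuationSubring QBar) (ζ : QBar)

/-- Series over the coefficient ring, as Laurent series over `ℚ̄`. -/
def serToLaurent : PowerSeries (stabRing A ζ) →+* LaurentSeries QBar :=
  (HahnSeries.ofPowerSeries ℤ QBar).comp (PowerSeries.map (stabRing A ζ).subtype)

theorem serToLaurent_injective : Function.Injective (serToLaurent A ζ) := fun r r' h => by
  have h1 : r.map (stabRing A ζ).subtype = r'.map (stabRing A ζ).subtype :=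
    HahnSeries.ofPowerSeries_injective h
  exact PowerSeries.map_injective _ Subtype.val_injective h1

/-- Their fractions, as Laurent series. -/
def fracToLaurent : FractionRing (PowerSeries (stabRing A ζ)) →+* LaurentSeries QBar :=
  IsFractionRing.lift (serToLaurent_injective A ζ)

theorem fracToLaurent_algebraMap (r : PowerSeries (stabRing A ζ)) :
    fracToLaurent A ζ (algebraMap _ _ r) = serToLaurent A ζ r :=
  IsFractionRing.lift_algebraMap _ r

/-- The range. -/
def serRange : Subfield (LaurentSeries QBar) := (fracToLaurent A ζ).fieldRange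

variable {A ζ}

theorem exists_serToLaurent_eq {s : LaurentSeries QBar} (hneg : ∀ k : ℤ, k < 0 → s.coeff k = 0)
    (h : ∀ k : ℕ, s.coeff k ∈ stabRing A ζ) :
    ∃ r : PowerSeries (stabRing A ζ), serToLaurent A ζ r = s ∧
      ((PowerSeries.constantCoeff r : stabRing A ζ) : QBar) = s.coeff 0 := by
  refine ⟨PowerSeries.mk fun k => ⟨s.coeff k, h k⟩, ?_, by
    rw [← PowerSeries.coeff_zero_eq_constantCoeff_apply, PowerSeries.coeff_mk]; rfl⟩
  ext k
  rcases lt_or_ge k 0 with hk | hk
  · rw [hneg k hk]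
    exact ModularCurve.ofPowerSeries_coeff_of_neg _ hk
  · lift k to ℕ using hk
    simp [serToLaurent]

theorem mem_serRange_of_coeff {s : LaurentSeries QBar} (hneg : ∀ k : ℤ, k < 0 → s.coeff k = 0)
    (h : ∀ k : ℕ, s.coeff k ∈ stabRing A ζ) : s ∈ serRange A ζ := by
  obtain ⟨r, hr, -⟩ := exists_serToLaurent_eq hneg h
  exact ⟨_, (fracToLaurent_algebraMap A ζ r).trans hr⟩

theorem C_mem_serRange {c : QBar} (hc : c ∈ stabRing A ζ) : HahnSeries.C c ∈ serRange A ζ :=
  ⟨algebraMap _ _ (PowerSeries.C (⟨c, hc⟩ : stabRing A ζ)), by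
    rw [fracToLaurent_algebraMap, serToLaurent, RingHom.comp_apply, PowerSeries.map_C,
      HahnSeries.ofPowerSeries_C]
    rfl⟩

theorem coeff_qExpand_int (N : ℕ) [NeZero N] (p : PowerSeries ℤ) :
    (∀ k : ℤ, k < 0 → (qExpand QBar N (HahnSeries.ofPowerSeries ℤ QBar
      (p.map (Int.castRingHom QBar)))).coeff k = 0) ∧
    ∀ k : ℕ, (qExpand QBar N (HahnSeries.ofPowerSeries ℤ QBar
      (p.map (Int.castRingHom QBar)))).coeff k ∈ stabRing A ζ := by
  have hN : (0 : ℤ) < N := by exact_mod_cast NeZero.pos N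
  refine ⟨fun k hk => ?_, fun k => ?_⟩
  · by_cases h : (N : ℤ) ∣ k
    · obtain ⟨l, rfl⟩ := h
      rw [ModularCurve.qExpand_coeff_mul]
      exact ModularCurve.ofPowerSeries_coeff_of_neg _ (by nlinarith)
    · exact ModularCurve.qExpand_coeff_of_not_dvd _ _ h
  · by_cases h : (N : ℤ) ∣ (k : ℤ)
    · obtain ⟨l, hl⟩ := h
      rw [hl, ModularCurve.qExpand_coeff_mul]
      lift l to ℕ using (by nlinarith [Int.natCast_nonneg k])
      simp only [HahnSeries.ofPowerSeries_apply_coeff, PowerSeries.coeff_map, eq_intCast]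
      exact intCast_mem _ _
    · rw [ModularCurve.qExpand_coeff_of_not_dvd _ _ h]
      exact zero_mem _

end Range

namespace Setup

section Gens

variable {n : ℕ} [NeZero n] (E : Setup n QBar) {A : ValuationSubring QBar} {q : ℕ}
  (hA : A.LiesOverPrime q) (hq : q.Prime)

theorem zeta_mem_stab : E.ζ ∈ stabRing A E.ζ :=
  ⟨mem_of_isIntegral A (IsIntegral.of_pow (NeZero.pos n)
    (E.isPrimitiveRoot.pow_eq_one ▸ isIntegral_one)), fun _ _ hz => hz⟩

include hA hq in
theorem algebraMap_mem_serRange (c : inertiaField A) :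
    HahnSeries.C (c : QBar) ∈ serRange A E.ζ := by
  have := (inertialBase hA hq).frac
  obtain ⟨a, b, -, rfl⟩ := IsFractionRing.div_surjective (A := (inertialBase hA hq).W) c
  rw [show ((algebraMap _ (inertiaField A) a / algebraMap _ _ b : inertiaField A) : QBar)
    = ((a : inertiaField A) : QBar) / ((b : inertiaField A) : QBar) from rfl, map_div₀]
  exact div_mem (C_mem_serRange (inertiaRing_le_stab a)) (C_mem_serRange (inertiaRing_le_stab b))

theorem rowSeries_mem (p : Bool) (v : ZMod n × ZMod n) :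
    HahnSeries.ofPowerSeries ℤ QBar (rowSeries n E.ζ p v) ∈ serRange A E.ζ := by
  set c := PowerSeries.constantCoeff (rowSeries n E.ζ p v) with hc
  have h0 : HahnSeries.C c ∈ serRange A E.ζ := by
    rw [hc, ← PowerSeries.coeff_zero_eq_constantCoeff_apply, rowSeries, PowerSeries.coeff_mk,
      if_pos rfl]
    have hz : HahnSeries.C (E.ζ ^ v.2.val) ∈ serRange A E.ζ :=
      C_mem_serRange (pow_mem E.zeta_mem_stab _)
    split_ifs
    · rw [map_rowH]
      cases p
      · exact div_mem hz (pow_mem (sub_mem (one_mem _) hz) _)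
      · exact div_mem (mul_mem hz (add_mem (one_mem _) hz))
          (pow_mem (sub_mem (one_mem _) hz) _)
    · rw [map_zero]; exact zero_mem _
  rw [show rowSeries n E.ζ p v = PowerSeries.C c + (rowSeries n E.ζ p v - PowerSeries.C c) by ring,
    map_add, HahnSeries.ofPowerSeries_C]
  refine add_mem h0 (mem_serRange_of_coeff (fun k hk => ModularCurve.ofPowerSeries_coeff_of_neg _ hk)
    fun k => ?_)
  rw [HahnSeries.ofPowerSeries_apply_coeff, map_sub, PowerSeries.coeff_C]
  split_ifs with hk
  · subst hk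
    rw [PowerSeries.coeff_zero_eq_constantCoeff_apply, hc, sub_self]
    exact zero_mem _
  · rw [sub_zero, rowSeries, PowerSeries.coeff_mk, if_neg hk]
    refine sum_mem fun d _ => ?_
    have hite : ∀ (P : Prop) [Decidable P] (i : ℕ),
        (if P then E.ζ ^ i else 0) ∈ stabRing A E.ζ := fun P _ i => by
      split_ifs
      · exact pow_mem E.zeta_mem_stab _
      · exact zero_mem _
    refine mul_mem (pow_mem (natCast_mem _ _) _) (add_mem (hite _ _) (mul_mem ?_ (hite _ _)))
    cases p
    · exact one_mem _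
    · exact neg_mem (one_mem _)

theorem toSer_rX_mem (v : ZMod n × ZMod n) : E.toSer (E.rX v) ∈ serRange A E.ζ := by
  rcases eq_or_ne v 0 with rfl | hv
  · rw [toSer_rX_zero]; exact zero_mem _
  · rw [E.toSer_rX hv, xSeries, map_sub, map_add, HahnSeries.ofPowerSeries_C, one_div, map_inv₀,
      map_ofNat]
    exact sub_mem (add_mem (inv_mem (ofNat_mem _ 12)) (E.rowSeries_mem _ v)) (E.rowSeries_mem _ 0)

theorem toSer_rY_mem (v : ZMod n × ZMod n) : E.toSer (E.rY v) ∈ serRange A E.ζ := by
  rcases eq_or_ne v 0 with rfl | hv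
  · rw [toSer_rY_zero]; exact zero_mem _
  · rw [E.toSer_rY hv, ySeries, map_mul, HahnSeries.ofPowerSeries_C, one_div, map_inv₀, map_ofNat]
    exact mul_mem (inv_mem (ofNat_mem _ 2)) (E.rowSeries_mem _ v)

theorem toSer_rA : E.toSer E.rA = HahnSeries.C (-1 / 48 : QBar) * qExpand QBar n
    (HahnSeries.ofPowerSeries ℤ QBar
      (ModularCurve.eisenstein4.map (Int.castRingHom QBar))) := by
  have hs : laurentExp 1 ⟨(ModularForm.E₄ : ℍ → ℂ), BddAlg_le_CuspAlg 1 E₄_mem_BddAlg⟩
      = HahnSeries.ofPowerSeries ℤ ℂ (ModularCurve.eisenstein4.map (Int.castRingHom ℂ)) := by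
    rw [show (⟨(ModularForm.E₄ : ℍ → ℂ), BddAlg_le_CuspAlg 1 E₄_mem_BddAlg⟩ : CuspAlg 1)
      = Subalgebra.inclusion (BddAlg_le_CuspAlg 1) ⟨_, E₄_mem_BddAlg⟩ from rfl, laurentExp_of_bdd,
      qExpBdd_apply]
    congr 1
    rw [← qExpansion_E₄, Nat.cast_one]
  obtain ⟨h, he⟩ := exists_qExpand (n := n) (BddAlg_le_CuspAlg 1 E₄_mem_BddAlg) hs
  refine E.toSer_eq ?_
  rw [show E.incl E.rA = (-1 / 48 : ℂ) • (⟨_, h⟩ : CuspAlg n) from Subtype.ext (funext fun τ => by
    show fA τ = (-1 / 48 : ℂ) * ModularForm.E₄ τ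
    simp [fA]; ring), Algebra.smul_def, map_mul, AlgHom.commutes, algebraMap_laurent_eq_C, he,
    map_mul, ModularCurve.coeffMap_qExpand, coeffMap_ofPowerSeries', HahnSeries.C_apply,
    HahnSeries.C_apply, ModularCurve.coeffMap_single]
  congr 1
  · rw [show E.ι (-1 / 48 : QBar) = -1 / 48 by rw [map_div₀, map_neg, map_one, map_ofNat]]
  · congr 2
    ext k
    simp

theorem toSer_rA_mem : E.toSer E.rA ∈ serRange A E.ζ := by
  obtain ⟨hneg, hnn⟩ := coeff_qExpand_int (A := A) (ζ := E.ζ) n ModularCurve.eisenstein4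
  rw [toSer_rA, map_div₀, map_neg, map_one, map_ofNat]
  exact mul_mem (div_mem (neg_mem (one_mem _)) (ofNat_mem _ 48)) (mem_serRange_of_coeff hneg hnn)

theorem genS_mem_serRange {g : Gen n} (hg : g.Good) : E.genS g ∈ serRange A E.ζ := by
  let T : Subring E.R := (serRange A E.ζ).toSubring.comap E.toSer
  have hX : ∀ v, E.rX v ∈ T := E.toSer_rX_mem
  have hY : ∀ v, E.rY v ∈ T := E.toSer_rY_mem
  have hA : E.rA ∈ T := E.toSer_rA_mem
  have h3 : ∀ P, E.rA3 P ∈ T := fun P => mul_mem (ofNat_mem _ 2) (hY P)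
  have hi : ∀ {P}, GoodPt P → Ring.inverse (E.rA3 P) ∈ T := fun {P} hP => by
    show E.toSer _ ∈ serRange A E.ζ
    rw [eq_inv_of_mul_eq_one_left (show E.toSer (Ring.inverse (E.rA3 P)) * E.toSer (E.rA3 P) = 1 by
      rw [← map_mul, Ring.inverse_mul_cancel _ (E.isUnit_rA3 hP), map_one])]
    exact inv_mem (h3 P)
  have hl : ∀ {P}, GoodPt P → E.rLam P ∈ T := fun {P} hP =>
    mul_mem (add_mem (mul_mem (ofNat_mem _ 3) (pow_mem (hX P) _)) hA) (hi hP)
  have h1 : ∀ {P}, GoodPt P → E.rA1 P ∈ T := fun hP => mul_mem (ofNat_mem _ 2) (hl hP)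
  have h2 : ∀ {P}, GoodPt P → E.rA2 P ∈ T := fun {P} hP =>
    sub_mem (mul_mem (ofNat_mem _ 3) (hX P)) (pow_mem (hl hP) _)
  cases g with
  | jay =>
    show E.toSer E.rJ ∈ _
    rw [toSer_rJ, jqModC, map_mul, ModularCurve.qExpand_single]
    obtain ⟨hneg, hnn⟩ := coeff_qExpand_int (A := A) (ζ := E.ζ) n ModularCurve.jNum
    refine mul_mem ?_ (mem_serRange_of_coeff hneg hnn)
    have h : (HahnSeries.single ((n : ℤ) * -1) (1 : QBar))
        = (HahnSeries.single (n : ℤ) (1 : QBar))⁻¹ := by
      rw [mul_neg, mul_one]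
      refine eq_inv_of_mul_eq_one_left ?_
      rw [HahnSeries.single_mul_single, neg_add_cancel, one_mul]
      rfl
    rw [h]
    refine inv_mem (mem_serRange_of_coeff (fun k hk => HahnSeries.coeff_single_of_ne (by omega))
      fun k => ?_)
    rw [HahnSeries.coeff_single]
    split_ifs
    · exact one_mem _
    · exact zero_mem _
  | tb P => exact mul_mem (neg_mem (pow_mem (h2 hg) _)) (pow_mem (hi hg) _)
  | tc P => exact sub_mem (one_mem _) (mul_mem (mul_mem (h1 hg) (h2 hg)) (hi hg))
  | tx P v => exact mul_mem (sub_mem (hX v) (hX P)) (pow_mem (mul_mem (h2 hg) (hi hg)) _)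
  | ty P v =>
    exact mul_mem (sub_mem (sub_mem (hY v) (hY P)) (mul_mem (hl hg) (sub_mem (hX v) (hX P))))
      (pow_mem (mul_mem (h2 hg) (hi hg)) _)

include hA hq in
theorem field_le_serRange : ∀ x ∈ E.field (inertiaField A), x ∈ serRange A E.ζ := by
  intro x hx
  induction hx using IntermediateField.adjoin_induction with
  | mem x hx =>
    rcases hx with ⟨a, rfl⟩ | ⟨g, hg, rfl⟩
    · exact C_mem_serRange (pow_mem E.zeta_mem_stab _)
    · exact E.genS_mem_serRange hg
  | algebraMap c =>
    rw [algebraMap_laurent_comp]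
    exact E.algebraMap_mem_serRange hA hq c
  | add x y _ _ hx hy => exact add_mem hx hy
  | inv x _ hx => exact inv_mem hx
  | mul x y _ _ hx hy => exact mul_mem hx hy

/-- The field inside the fractions of series over the coefficient ring. -/
def toSerFrac : E.field (inertiaField A) →+* FractionRing (PowerSeries (stabRing A E.ζ)) where
  toFun x := (E.field_le_serRange hA hq x x.2).choose
  map_one' := (fracToLaurent A E.ζ).injective (by
    rw [(E.field_le_serRange hA hq _ (1 : E.field (inertiaField A)).2).choose_spec, map_one]; rfl)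
  map_mul' x y := (fracToLaurent A E.ζ).injective (by
    rw [map_mul, (E.field_le_serRange hA hq _ (x * y).2).choose_spec,
      (E.field_le_serRange hA hq _ x.2).choose_spec,
      (E.field_le_serRange hA hq _ y.2).choose_spec]; rfl)
  map_zero' := (fracToLaurent A E.ζ).injective (by
    rw [(E.field_le_serRange hA hq _ (0 : E.field (inertiaField A)).2).choose_spec, map_zero]; rfl)
  map_add' x y := (fracToLaurent A E.ζ).injective (by
    rw [map_add, (E.field_le_serRange hA hq _ (x + y).2).choose_spec,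
      (E.field_le_serRange hA hq _ x.2).choose_spec,
      (E.field_le_serRange hA hq _ y.2).choose_spec]; rfl)

theorem fracToLaurent_toSerFrac (x : E.field (inertiaField A)) :
    fracToLaurent A E.ζ (E.toSerFrac hA hq x) = x :=
  (E.field_le_serRange hA hq x x.2).choose_spec

theorem toSerFrac_algebraMap (w : inertiaRing A) :
    E.toSerFrac hA hq (algebraMap _ _ (w : inertiaField A))
      = algebraMap _ _ (PowerSeries.C (⟨_, inertiaRing_le_stab w⟩ : stabRing A E.ζ)) := by
  refine (fracToLaurent A E.ζ).injective ?_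
  rw [fracToLaurent_toSerFrac, fracToLaurent_algebraMap, serToLaurent, RingHom.comp_apply,
    PowerSeries.map_C, HahnSeries.ofPowerSeries_C]
  exact algebraMap_laurent_comp _

theorem exists_toSerFrac_fj : ∃ p : PowerSeries (stabRing A E.ζ),
    IsUnit (PowerSeries.constantCoeff p) ∧
      E.toSerFrac hA hq (E.fj (inertiaField A)) *
          algebraMap (PowerSeries (stabRing A E.ζ))
            (FractionRing (PowerSeries (stabRing A E.ζ))) PowerSeries.X ^ n
        = algebraMap _ _ p := by
  obtain ⟨hneg, hnn⟩ := coeff_qExpand_int (A := A) (ζ := E.ζ) n ModularCurve.jNum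
  obtain ⟨p, hp, hp0⟩ := exists_serToLaurent_eq hneg hnn
  refine ⟨p, ?_, (fracToLaurent A E.ζ).injective ?_⟩
  · have h1 : PowerSeries.constantCoeff p = 1 := Subtype.ext (by
      rw [hp0, show (0 : ℤ) = (n : ℤ) * ((0 : ℕ) : ℤ) by simp, ModularCurve.qExpand_coeff_mul,
        HahnSeries.ofPowerSeries_apply_coeff, PowerSeries.coeff_map,
        PowerSeries.coeff_zero_eq_constantCoeff_apply, ModularCurve.constantCoeff_jNum, map_one,
        Subring.coe_one])
    rw [h1]; exact isUnit_one
  · rw [map_mul, map_pow, fracToLaurent_toSerFrac, fracToLaurent_algebraMap,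
      fracToLaurent_algebraMap, hp, coe_fj, jqModC, map_mul, ModularCurve.qExpand_single,
      serToLaurent, RingHom.comp_apply, PowerSeries.map_X, HahnSeries.ofPowerSeries_X,
      HahnSeries.single_pow, one_pow, mul_comm, ← mul_assoc, HahnSeries.single_mul_single, one_mul,
      nsmul_one, show ((n : ℕ) : ℤ) + (n : ℤ) * -1 = 0 by ring]
    exact one_mul _

end Gens

variable {Q q n : ℕ} [NeZero (Q * n)] (E : Setup (Q * n) QBar) {A : ValuationSubring QBar}
  (hA : A.LiesOverPrime q) (hq : q.Prime) [DecidableEq ℂ]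
  [DecidableEq (E.field (inertiaField A))] [IsGalois (inertiaField A) QBar]

/-- The embedding at the cusp, in level `Q n` with `Q` a power of `q`. -/
def cuspEmbPow (hcop : Q.Coprime n) (a : ℕ) (ha : a ≠ 0) (hQ : Q = q ^ a) (L : ℕ)
    (hL : L = 7 ∨ L = 9) (hLn : L ∣ n)
    (hgal : ∀ d : (ZMod Q)ˣ, ∃ σ : QBar ≃ₐ[inertiaField A] QBar, σ (E.ζ ^ Q) = E.ζ ^ Q ∧
      σ (E.ζ ^ n) = (E.ζ ^ n) ^ (d : ZMod Q).val) :
    CuspEmb (E.tateLevelPow (inertiaField A) hcop hq a ha hQ L hL hLn hgal)
      (cuspBase hA hq E.isPrimitiveRoot) where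
  σ := E.toSerFrac hA hq
  σ_cst w := E.toSerFrac_algebraMap hA hq w
  N := Q * n
  one_le := NeZero.one_le
  p := (E.exists_toSerFrac_fj hA hq).choose
  unit := (E.exists_toSerFrac_fj hA hq).choose_spec.1
  σ_j := (E.exists_toSerFrac_fj hA hq).choose_spec.2

end Setup

namespace Setup

variable {q n : ℕ} [NeZero (q * n)] (E : Setup (q * n) QBar) {A : ValuationSubring QBar}
  (hA : A.LiesOverPrime q) (hq : q.Prime) [DecidableEq ℂ]
  [DecidableEq (E.field (inertiaField A))] [IsGalois (inertiaField A) QBar]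

/-- The embedding at the cusp. -/
def cuspEmb (hcop : q.Coprime n) (L : ℕ) (hL : L = 7 ∨ L = 9) (hLn : L ∣ n)
    (hgal : ∀ d : (ZMod q)ˣ, ∃ σ : QBar ≃ₐ[inertiaField A] QBar, σ (E.ζ ^ q) = E.ζ ^ q ∧
      σ (E.ζ ^ n) = (E.ζ ^ n) ^ (d : ZMod q).val) :
    CuspEmb (E.tateLevel (inertiaField A) hcop hq L hL hLn hgal)
      (cuspBase hA hq E.isPrimitiveRoot) :=
  E.cuspEmbPow hA hq hcop 1 one_ne_zero (pow_one q).symm L hL hLn hgal

end Setup

end Fermat.Agent.Carayol.Omega
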