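import Fermat.Agent.Carayol.Omega.Ring

/-!
# The field of level `n` and the automorphisms moving torsion labels
-/

set_option autoImplicit false
set_option linter.unusedSectionVars false

noncomputable section

open UpperHalfPlane hiding I
open Complex Function
open scoped MatrixGroups

namespace Fermat.Agent.Carayol.Omega

open Fermat.Agent.ModFun
open ModularCurve (coeffMap qExpand jqModC)

theorem algebraMap_laurent_comp {k K : Type*} [Field k] [Field K] [Algebra k K] (c : k) :
    algebraMap k (LaurentSeries K) c = HahnSeries.C (algebraMap k K c) := by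
  rw [HahnSeries.algebraMap_apply', PowerSeries.algebraMap_apply, HahnSeries.ofPowerSeries_C]

namespace Setup

variable {n : ℕ} [NeZero n] {K : Type*} [Field K] [CharZero K] (E : Setup n K)

instance : IsDomain E.ring :=
  Function.Injective.isDomain (E.toSer.comp E.ring.subtype)
    (E.toSer_injective.comp Subtype.val_injective)

theorem toSer_sub_injective : Function.Injective (E.toSer.comp E.ring.subtype) :=
  E.toSer_injective.comp Subtype.val_injective

/-- The fraction field of the ring, inside Laurent series. -/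
def fracSer : FractionRing E.ring →+* LaurentSeries K :=
  IsFractionRing.lift E.toSer_sub_injective

/-- Substitution, on the fraction field. -/
def fracPull (γ : SL(2, ℤ)) : FractionRing E.ring →+* LaurentSeries K :=
  IsFractionRing.lift (g := (E.toSer.comp E.ring.subtype).comp (E.pull γ))
    (by rw [RingHom.coe_comp]; exact E.toSer_sub_injective.comp (E.pull_injective γ))

theorem fracSer_algebraMap (f : E.ring) : E.fracSer (algebraMap _ _ f) = E.toSer f :=
  IsFractionRing.lift_algebraMap _ f

theorem fracPull_algebraMap (γ : SL(2, ℤ)) (f : E.ring) :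
    E.fracPull γ (algebraMap _ _ f) = E.toSer (E.pull γ f) :=
  IsFractionRing.lift_algebraMap _ f

/-- The series of a generator. -/
def genS (g : Gen n) : LaurentSeries K := E.toSer (E.gen g)

variable (k : Type*) [Field k] [Algebra k K]

/-- The generating set of the field. -/
def gensSet : Set (LaurentSeries K) :=
  Set.range (fun a : ZMod n => HahnSeries.C (E.ζ ^ a.val)) ∪ E.genS '' {g | g.Good}

theorem finite_gensSet : E.gensSet.Finite :=
  (Set.finite_range _).union ((Set.toFinite _).image _)

/-- The field `k(ζ, j, torsion coordinates in Tate normal form)`. -/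
def field : IntermediateField k (LaurentSeries K) := IntermediateField.adjoin k E.gensSet

variable {k}

theorem zetaS_mem (a : ZMod n) : HahnSeries.C (E.ζ ^ a.val) ∈ E.field k :=
  IntermediateField.subset_adjoin k _ (Or.inl ⟨a, rfl⟩)

theorem genS_mem {g : Gen n} (hg : g.Good) : E.genS g ∈ E.field k :=
  IntermediateField.subset_adjoin k _ (Or.inr ⟨g, hg, rfl⟩)

variable (k)

/-- Powers of `ζ` in the field. -/
def fz (a : ZMod n) : E.field k := ⟨_, E.zetaS_mem a⟩

/-- The generators in the field. -/
def fgen {g : Gen n} (hg : g.Good) : E.field k := ⟨_, E.genS_mem hg⟩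

/-- `j` in the field. -/
def fj : E.field k := E.fgen k (g := Gen.jay) trivial

theorem coe_fj : (E.fj k : LaurentSeries K) = qExpand K n (jqModC K) := E.toSer_rJ

theorem field_le_range : ∀ x ∈ E.field k, x ∈ E.fracSer.fieldRange := by
  intro x hx
  have hconst : ∀ c : K, HahnSeries.C c ∈ E.fracSer.fieldRange := fun c =>
    ⟨algebraMap _ _ (E.constA c), by
      rw [fracSer_algebraMap]; exact E.toSer_const c⟩
  induction hx using IntermediateField.adjoin_induction with
  | mem x hx =>
    rcases hx with ⟨a, rfl⟩ | ⟨g, hg, rfl⟩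
    · exact hconst _
    · exact ⟨algebraMap _ _ (E.genA hg), E.fracSer_algebraMap _⟩
  | algebraMap c => rw [algebraMap_laurent_comp]; exact hconst _
  | add x y _ _ hx hy => exact add_mem hx hy
  | inv x _ hx => exact inv_mem hx
  | mul x y _ _ hx hy => exact mul_mem hx hy

/-- The field as a subfield of the fraction field. -/
def toFrac : E.field k →+* FractionRing E.ring where
  toFun x := (E.field_le_range k x x.2).choose
  map_one' := E.fracSer.injective (by
    rw [(E.field_le_range k _ (1 : E.field k).2).choose_spec, map_one]; rfl)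
  map_mul' x y := E.fracSer.injective (by
    rw [map_mul, (E.field_le_range k _ (x * y).2).choose_spec,
      (E.field_le_range k _ x.2).choose_spec, (E.field_le_range k _ y.2).choose_spec]; rfl)
  map_zero' := E.fracSer.injective (by
    rw [(E.field_le_range k _ (0 : E.field k).2).choose_spec, map_zero]; rfl)
  map_add' x y := E.fracSer.injective (by
    rw [map_add, (E.field_le_range k _ (x + y).2).choose_spec,
      (E.field_le_range k _ x.2).choose_spec, (E.field_le_range k _ y.2).choose_spec]; rfl)

theorem fracSer_toFrac (x : E.field k) : E.fracSer (E.toFrac k x) = x :=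
  (E.field_le_range k x x.2).choose_spec

theorem toFrac_eq {x : E.field k} {f : E.ring} (h : E.toSer f = (x : LaurentSeries K)) :
    E.toFrac k x = algebraMap _ _ f :=
  E.fracSer.injective (by rw [fracSer_toFrac, fracSer_algebraMap, h])

/-- Substitution as a map of the field. -/
def substHom (γ : SL(2, ℤ)) : E.field k →ₐ[k] LaurentSeries K :=
  { (E.fracPull γ).comp (E.toFrac k) with
    commutes' := fun c => by
      have h : E.toSer (E.constA (algebraMap k K c))
          = ((algebraMap k (E.field k) c : E.field k) : LaurentSeries K) := by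
        show E.toSer (E.const _) = algebraMap k (LaurentSeries K) c
        rw [toSer_const, algebraMap_laurent_comp]
      show E.fracPull γ (E.toFrac k (algebraMap k (E.field k) c)) = _
      rw [E.toFrac_eq k h, fracPull_algebraMap, pull_constA]
      show E.toSer (E.const _) = _
      rw [toSer_const, algebraMap_laurent_comp] }

theorem substHom_fz (γ : SL(2, ℤ)) (a : ZMod n) :
    E.substHom k γ (E.fz k a) = HahnSeries.C (E.ζ ^ a.val) := by
  show E.fracPull γ (E.toFrac k (E.fz k a)) = _
  rw [E.toFrac_eq k (f := E.constA (E.ζ ^ a.val)) (E.toSer_const _), fracPull_algebraMap,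
    pull_constA]
  exact E.toSer_const _

theorem substHom_fgen (γ : SL(2, ℤ)) {g : Gen n} (hg : g.Good) :
    E.substHom k γ (E.fgen k hg) = E.genS (g.move (redMat n γ)) := by
  show E.fracPull γ (E.toFrac k (E.fgen k hg)) = _
  rw [E.toFrac_eq k (f := E.genA hg) rfl, fracPull_algebraMap, pull_genA]
  rfl

variable {k}

/-- Conjugation of coefficients as a map of the field. -/
def conjHom (σ : K ≃ₐ[k] K) : E.field k →ₐ[k] LaurentSeries K :=
  { (coeffMap (σ : K →+* K)).comp (E.field k).toSubfield.subtype with
    commutes' := fun c => by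
      show coeffMap (σ : K →+* K) (algebraMap k (LaurentSeries K) c) = _
      rw [algebraMap_laurent_comp, HahnSeries.C_apply, ModularCurve.coeffMap_single]
      simp }

theorem conjHom_apply (σ : K ≃ₐ[k] K) (x : E.field k) :
    E.conjHom σ x = coeffMap (σ : K →+* K) (x : LaurentSeries K) := rfl

theorem zeta_pow_congr {a b : ℕ} (h : (a : ZMod n) = b) : E.ζ ^ a = E.ζ ^ b := by
  rw [pow_eq_pow_mod a E.isPrimitiveRoot.pow_eq_one, pow_eq_pow_mod b E.isPrimitiveRoot.pow_eq_one,
    ← ZMod.val_natCast, ← ZMod.val_natCast, h]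

variable (k)

/-- An automorphism moving labels by the matrix `M`. -/
def Moves (e : E.field k ≃ₐ[k] E.field k) (M : Matrix (Fin 2) (Fin 2) (ZMod n)) : Prop :=
  ∃ hM : IsUnit M, (∀ a, e (E.fz k a) = E.fz k (M.det * a)) ∧
    ∀ (g : Gen n) (hg : g.Good), e (E.fgen k hg) = E.fgen k (Gen.Good.move hg hM)

theorem exists_moves_of_hom (h : E.field k →ₐ[k] LaurentSeries K)
    {M : Matrix (Fin 2) (Fin 2) (ZMod n)} (hM : IsUnit M)
    (hz : ∀ a : ZMod n, h (E.fz k a) = HahnSeries.C (E.ζ ^ (M.det * a).val))
    (hg : ∀ (g : Gen n) (hg : g.Good), h (E.fgen k hg) = E.genS (g.move M)) :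
    ∃ e, E.Moves k e M ∧ ∀ x, ((e x : E.field k) : LaurentSeries K) = h x := by
  have hrange : ∀ x, h x ∈ E.field k := by
    have : IntermediateField.adjoin k ((↑) ⁻¹' E.gensSet : Set (E.field k)) ≤
        (E.field k).comap h := by
      rw [IntermediateField.adjoin_le_iff]
      rintro x (⟨a, ha⟩ | ⟨g, hg', hx⟩)
      · show h x ∈ E.field k
        rw [show x = E.fz k a from Subtype.ext ha.symm, hz]
        exact E.zetaS_mem _
      · show h x ∈ E.field k
        rw [show x = E.fgen k hg' from Subtype.ext hx.symm, hg g hg']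
        exact E.genS_mem (Gen.Good.move hg' hM)
    intro x
    refine this ?_
    rw [show IntermediateField.adjoin k ((↑) ⁻¹' E.gensSet : Set (E.field k)) = ⊤ from ?_]
    · trivial
    · apply IntermediateField.lift_injective (E.field k)
      rw [IntermediateField.lift_adjoin, IntermediateField.lift_top, Set.image_preimage_eq_of_subset]
      · rfl
      · rw [Subtype.range_coe]; exact IntermediateField.subset_adjoin k _
  set e₀ : E.field k →ₐ[k] E.field k := h.codRestrict (E.field k).toSubalgebra hrange with he₀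
  set S : Set (E.field k) := (↑) ⁻¹' E.gensSet
  have hSfin : S.Finite := E.finite_gensSet.preimage Subtype.val_injective.injOn
  have hmaps : Set.MapsTo e₀ S S := by
    rintro x (⟨a, ha⟩ | ⟨g, hg', hx⟩)
    · obtain rfl : x = E.fz k a := Subtype.ext ha.symm
      exact Or.inl ⟨M.det * a, (hz a).symm⟩
    · obtain rfl : x = E.fgen k hg' := Subtype.ext hx.symm
      exact Or.inr ⟨g.move M, Gen.Good.move hg' hM, (hg g hg').symm⟩
  have hsurj : Function.Surjective e₀ := by
    rw [← AlgHom.fieldRange_eq_top, eq_top_iff]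
    have htop : IntermediateField.adjoin k S = ⊤ := by
      apply IntermediateField.lift_injective (E.field k)
      rw [IntermediateField.lift_adjoin, IntermediateField.lift_top, Set.image_preimage_eq_of_subset]
      · rfl
      · rw [Subtype.range_coe]; exact IntermediateField.subset_adjoin k _
    rw [← htop, IntermediateField.adjoin_le_iff]
    intro x hx
    obtain ⟨y, -, rfl⟩ := (Set.Finite.injOn_iff_bijOn_of_mapsTo hSfin hmaps).mp
      e₀.toRingHom.injective.injOn |>.surjOn hx
    exact ⟨y, rfl⟩
  refine ⟨AlgEquiv.ofBijective e₀ ⟨e₀.toRingHom.injective, hsurj⟩,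
    ⟨hM, fun a => Subtype.ext ?_, fun g hg' => Subtype.ext ?_⟩, fun x => rfl⟩
  · exact hz a
  · exact hg g hg'

theorem exists_moves_subst (γ : SL(2, ℤ)) :
    ∃ e, E.Moves k e (redMat n γ) ∧
      ∀ x, ((e x : E.field k) : LaurentSeries K) = E.substHom k γ x :=
  E.exists_moves_of_hom k _ (isUnit_redMat n γ)
    (fun a => by rw [substHom_fz, det_redMat, one_mul]) fun _ hg => E.substHom_fgen k γ hg

theorem exists_moves_conj (σ : K ≃ₐ[k] K) :
    ∃ (c : ℕ) (e : E.field k ≃ₐ[k] E.field k), c.Coprime n ∧ σ E.ζ = E.ζ ^ c ∧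
      E.Moves k e (diagMat n c) ∧
      ∀ x, ((e x : E.field k) : LaurentSeries K) = coeffMap (σ : K →+* K) x := by
  obtain ⟨c, -, hc, hσ⟩ :=
    (E.isPrimitiveRoot.isPrimitiveRoot_iff (k := n)).mp
      (E.isPrimitiveRoot.map_of_injective σ.injective)
  have hM : IsUnit (diagMat n (c : ZMod n)) := (Matrix.isUnit_iff_isUnit_det _).mpr (by
    rw [det_diagMat]; exact (ZMod.isUnit_iff_coprime c n).mpr hc)
  obtain ⟨e, he, he'⟩ := E.exists_moves_of_hom k (E.conjHom σ) hM (fun a => by
    rw [conjHom_apply]
    show coeffMap (σ : K →+* K) (HahnSeries.C (E.ζ ^ a.val)) = _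
    rw [HahnSeries.C_apply, ModularCurve.coeffMap_single, HahnSeries.C_apply]
    congr 1
    show σ (E.ζ ^ a.val) = _
    rw [map_pow, ← hσ, ← pow_mul]
    exact E.zeta_pow_congr (by simp [det_diagMat]))
    fun g hg => E.conj_gen (σ : K →+* K) hσ.symm hc hg
  exact ⟨c, e, hc, hσ.symm, he, he'⟩

variable {k} {E}

theorem Moves.ext {e e' : E.field k ≃ₐ[k] E.field k} {M : Matrix (Fin 2) (Fin 2) (ZMod n)}
    (h : E.Moves k e M) (h' : E.Moves k e' M) : e = e' := by
  obtain ⟨hM, hz, hg⟩ := h
  obtain ⟨hM', hz', hg'⟩ := h'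
  refine AlgEquiv.ext fun x => ?_
  have : (e : E.field k →ₐ[k] E.field k) = e' := by
    refine IntermediateField.adjoin_algHom_ext k fun x hx => ?_
    rcases hx with ⟨a, rfl⟩ | ⟨g, hgood, rfl⟩
    · exact (hz a).trans (hz' a).symm
    · exact (hg g hgood).trans (hg' g hgood).symm
  exact AlgHom.congr_fun this x

theorem Moves.mul {e f : E.field k ≃ₐ[k] E.field k} {M N : Matrix (Fin 2) (Fin 2) (ZMod n)}
    (he : E.Moves k e M) (hf : E.Moves k f N) : E.Moves k (e * f) (N * M) := by
  obtain ⟨hM, hz, hg⟩ := he
  obtain ⟨hN, hz', hg'⟩ := hf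
  refine ⟨hN.mul hM, fun a => ?_, fun g hgood => ?_⟩
  · rw [AlgEquiv.mul_apply, hz', hz, Matrix.det_mul]
    congr 1
    ring
  · rw [AlgEquiv.mul_apply, hg' g hgood, hg _ (Gen.Good.move hgood hN)]
    exact Subtype.ext (congrArg E.genS (Gen.move_move g N M))

theorem Moves.apply_fj {e : E.field k ≃ₐ[k] E.field k} {M : Matrix (Fin 2) (Fin 2) (ZMod n)}
    (he : E.Moves k e M) : e (E.fj k) = E.fj k := by
  obtain ⟨hM, -, hg⟩ := he
  exact hg Gen.jay trivial

theorem moves_one : E.Moves k 1 1 := by
  refine ⟨isUnit_one, fun a => ?_, fun g hg => ?_⟩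
  · rw [AlgEquiv.one_apply, Matrix.det_one, one_mul]
  · rw [AlgEquiv.one_apply]
    exact Subtype.ext (congrArg E.genS (Gen.move_one g).symm)

theorem Moves.symm {e : E.field k ≃ₐ[k] E.field k} {M : Matrix (Fin 2) (Fin 2) (ZMod n)}
    (he : E.Moves k e M) : ∃ N, E.Moves k e⁻¹ N := by
  obtain ⟨hM, hz, hg⟩ := he
  obtain ⟨u, rfl⟩ := hM
  refine ⟨↑u⁻¹, Units.isUnit _, fun a => e.injective ?_, fun g hgood => e.injective ?_⟩
  · rw [hz, ← mul_assoc, ← Matrix.det_mul, Units.mul_inv, Matrix.det_one, one_mul]
    exact e.apply_symm_apply _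
  · rw [hg _ (Gen.Good.move hgood (Units.isUnit _))]
    refine (e.apply_symm_apply _).trans (Subtype.ext (congrArg E.genS ?_))
    rw [Gen.move_move, Units.inv_mul, Gen.move_one]

end Setup

end Fermat.Agent.Carayol.Omega
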