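import Mathlib.AlgebraicGeometry.EllipticCurve.Affine.Point
import Mathlib.Tactic.LinearCombination
import Mathlib.Tactic.Push

/-!
# From pointwise group homomorphisms to a homomorphism over the field of functions

A family of homomorphisms into specialised curves whose coordinates come from fixed functions gives
a homomorphism into the points over any field containing the ring of functions.
-/

set_option autoImplicit false
set_option linter.unusedSectionVars false

namespace Fermat.Agent.Carayol.Omega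

open WeierstrassCurve WeierstrassCurve.Affine

variable {R : Type*} [CommRing R] {G : Type*} [AddCommGroup G]

/-- The data of a pointwise family of torsion homomorphisms on a curve over a ring of functions. -/
structure PointFamily (W : WeierstrassCurve R) (G : Type*) [AddCommGroup G] (T : Type*)
    (F₀ : Type*) [Field F₀] [DecidableEq F₀] where
  X : G → R
  Y : G → R
  ev : T → R →+* F₀
  separates : ∀ r : R, (∀ τ, ev τ r = 0) → r = 0
  hom : ∀ τ, G →+ (W.map (ev τ)).toAffine.Point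
  hom_injective : ∀ τ, Function.Injective (hom τ)
  hom_apply : ∀ τ (g : G), g ≠ 0 → ∃ h, hom τ g = .some (ev τ (X g)) (ev τ (Y g)) h
  Δ_ne : ∀ τ, ev τ W.Δ ≠ 0
  nonempty : Nonempty T

namespace PointFamily

variable {W : WeierstrassCurve R} {T : Type*} {F₀ : Type*} [Field F₀] [DecidableEq F₀]
  (P : PointFamily W G T F₀) {K : Type*} [Field K] [DecidableEq K] {f : R →+* K}

theorem eq_of_forall {r s : R} (h : ∀ τ, P.ev τ r = P.ev τ s) : r = s :=
  sub_eq_zero.mp (P.separates _ fun τ => by rw [map_sub, h τ, sub_self])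

theorem equation {g : G} (hg : g ≠ 0) : W.toAffine.Equation (P.X g) (P.Y g) := by
  rw [equation_iff]
  refine P.eq_of_forall fun τ => ?_
  obtain ⟨h, -⟩ := P.hom_apply τ g hg
  have e := (equation_iff ..).mp h.1
  simp only [map_a₁, map_a₂, map_a₃, map_a₄, map_a₆] at e
  simpa using e

include P in
theorem map_Δ_ne (hf : Function.Injective f) : f W.Δ ≠ 0 := by
  obtain ⟨τ⟩ := P.nonempty
  intro h
  rw [map_eq_zero_iff f hf] at h
  exact P.Δ_ne τ (by rw [h, map_zero])

theorem nonsingular (hf : Function.Injective f) {g : G} (hg : g ≠ 0) :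
    (W.map f).toAffine.Nonsingular (f (P.X g)) (f (P.Y g)) :=
  (equation_iff_nonsingular_of_Δ_ne_zero (by simpa using P.map_Δ_ne hf)).mp
    (Affine.Equation.map f (P.equation hg))

open Classical in
/-- The point over `K` attached to `g`. -/
noncomputable def point (hf : Function.Injective f) (g : G) : (W.map f).toAffine.Point :=
  if hg : g = 0 then 0 else .some _ _ (P.nonsingular hf hg)

theorem point_of_ne (hf : Function.Injective f) {g : G} (hg : g ≠ 0) :
    P.point hf g = .some _ _ (P.nonsingular hf hg) := dif_neg hg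

theorem point_zero (hf : Function.Injective f) : P.point hf 0 = 0 := dif_pos rfl

theorem neg_coords {g : G} (hg : g ≠ 0) :
    P.X (-g) = P.X g ∧ P.Y (-g) = -P.Y g - W.a₁ * P.X g - W.a₃ := by
  have key : ∀ τ, P.ev τ (P.X (-g)) = P.ev τ (P.X g) ∧
      P.ev τ (P.Y (-g)) = P.ev τ (-P.Y g - W.a₁ * P.X g - W.a₃) := fun τ => by
    obtain ⟨h, e⟩ := P.hom_apply τ g hg
    obtain ⟨h', e'⟩ := P.hom_apply τ (-g) (neg_ne_zero.mpr hg)
    rw [map_neg, e, Point.neg_some] at e'
    obtain ⟨e1, e2⟩ := Point.some.inj e'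
    refine ⟨e1.symm, ?_⟩
    rw [← e2, Affine.negY, map_sub, map_sub, map_neg, map_mul, map_a₁, map_a₃]
  exact ⟨P.eq_of_forall fun τ => (key τ).1, P.eq_of_forall fun τ => (key τ).2⟩

theorem X_ne {τ : T} {g h : G} (hg : g ≠ 0) (hh : h ≠ 0) (h1 : g ≠ h) (h2 : g ≠ -h) :
    P.ev τ (P.X g) ≠ P.ev τ (P.X h) := by
  intro e
  obtain ⟨a, ea⟩ := P.hom_apply τ g hg
  obtain ⟨b, eb⟩ := P.hom_apply τ h hh
  rcases (Point.X_eq_iff (h₁ := a) (h₂ := b)).mp e with e' | e'
  · exact h1 (P.hom_injective τ (by rw [ea, eb, e']))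
  · exact h2 (P.hom_injective τ (by rw [map_neg, ea, eb, e']))

theorem Y_ne {τ : T} {g : G} (hg : g ≠ 0) (h2 : g + g ≠ 0) :
    P.ev τ (P.Y g) ≠ (W.map (P.ev τ)).toAffine.negY (P.ev τ (P.X g)) (P.ev τ (P.Y g)) := by
  intro e
  obtain ⟨a, ea⟩ := P.hom_apply τ g hg
  apply h2
  apply P.hom_injective τ
  rw [map_add, map_zero, ea]
  exact Point.add_self_of_Y_eq e

theorem add_chord {g h : G} (hg : g ≠ 0) (hh : h ≠ 0) (h1 : g ≠ h) (h2 : g ≠ -h) :
    P.X (g + h) * (P.X g - P.X h) ^ 2
        = (P.Y g - P.Y h) ^ 2 + W.a₁ * (P.Y g - P.Y h) * (P.X g - P.X h)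
          - (W.a₂ + P.X g + P.X h) * (P.X g - P.X h) ^ 2 ∧
      P.Y (g + h) * (P.X g - P.X h)
        = -((P.Y g - P.Y h) * (P.X (g + h) - P.X g) + P.Y g * (P.X g - P.X h))
          - (W.a₁ * P.X (g + h) + W.a₃) * (P.X g - P.X h) := by
  have hgh : g + h ≠ 0 := fun e => h2 (eq_neg_of_add_eq_zero_left e)
  have key : ∀ τ, ∀ r : R × R,
      r = (P.X (g + h) * (P.X g - P.X h) ^ 2
            - ((P.Y g - P.Y h) ^ 2 + W.a₁ * (P.Y g - P.Y h) * (P.X g - P.X h)
              - (W.a₂ + P.X g + P.X h) * (P.X g - P.X h) ^ 2),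
          P.Y (g + h) * (P.X g - P.X h)
            - (-((P.Y g - P.Y h) * (P.X (g + h) - P.X g) + P.Y g * (P.X g - P.X h))
              - (W.a₁ * P.X (g + h) + W.a₃) * (P.X g - P.X h))) →
      P.ev τ r.1 = 0 ∧ P.ev τ r.2 = 0 := by
    rintro τ r rfl
    have hne := P.X_ne (τ := τ) hg hh h1 h2
    obtain ⟨a, ea⟩ := P.hom_apply τ g hg
    obtain ⟨b, eb⟩ := P.hom_apply τ h hh
    obtain ⟨c, ec⟩ := P.hom_apply τ (g + h) hgh
    rw [map_add, ea, eb, Point.add_of_X_ne hne] at ec
    obtain ⟨e1, e2⟩ := Point.some.inj ec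
    rw [slope_of_X_ne hne] at e1 e2
    simp only [Affine.addY, Affine.negAddY] at e2
    rw [e1] at e2
    simp only [Affine.addX, Affine.negY, map_a₁, map_a₂, map_a₃] at e1 e2
    have hd : P.ev τ (P.X g) - P.ev τ (P.X h) ≠ 0 := sub_ne_zero.mpr hne
    simp only [map_sub, map_add, map_mul, map_pow, map_neg]
    field_simp at e1 e2
    exact ⟨by linear_combination -e1, by linear_combination -e2⟩
  exact ⟨sub_eq_zero.mp (P.separates _ fun τ => (key τ _ rfl).1),
    sub_eq_zero.mp (P.separates _ fun τ => (key τ _ rfl).2)⟩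

theorem add_double {g : G} (hg : g ≠ 0) (h2 : g + g ≠ 0) :
    P.X (g + g) * (2 * P.Y g + W.a₁ * P.X g + W.a₃) ^ 2
        = (3 * P.X g ^ 2 + 2 * W.a₂ * P.X g + W.a₄ - W.a₁ * P.Y g) ^ 2
          + W.a₁ * (3 * P.X g ^ 2 + 2 * W.a₂ * P.X g + W.a₄ - W.a₁ * P.Y g)
            * (2 * P.Y g + W.a₁ * P.X g + W.a₃)
          - (W.a₂ + P.X g + P.X g) * (2 * P.Y g + W.a₁ * P.X g + W.a₃) ^ 2 ∧
      P.Y (g + g) * (2 * P.Y g + W.a₁ * P.X g + W.a₃)
        = -((3 * P.X g ^ 2 + 2 * W.a₂ * P.X g + W.a₄ - W.a₁ * P.Y g) * (P.X (g + g) - P.X g)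
            + P.Y g * (2 * P.Y g + W.a₁ * P.X g + W.a₃))
          - (W.a₁ * P.X (g + g) + W.a₃) * (2 * P.Y g + W.a₁ * P.X g + W.a₃) := by
  have key : ∀ τ, ∀ r : R × R,
      r = (P.X (g + g) * (2 * P.Y g + W.a₁ * P.X g + W.a₃) ^ 2
            - ((3 * P.X g ^ 2 + 2 * W.a₂ * P.X g + W.a₄ - W.a₁ * P.Y g) ^ 2
              + W.a₁ * (3 * P.X g ^ 2 + 2 * W.a₂ * P.X g + W.a₄ - W.a₁ * P.Y g)
                * (2 * P.Y g + W.a₁ * P.X g + W.a₃)
              - (W.a₂ + P.X g + P.X g) * (2 * P.Y g + W.a₁ * P.X g + W.a₃) ^ 2),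
          P.Y (g + g) * (2 * P.Y g + W.a₁ * P.X g + W.a₃)
            - (-((3 * P.X g ^ 2 + 2 * W.a₂ * P.X g + W.a₄ - W.a₁ * P.Y g)
                  * (P.X (g + g) - P.X g) + P.Y g * (2 * P.Y g + W.a₁ * P.X g + W.a₃))
              - (W.a₁ * P.X (g + g) + W.a₃) * (2 * P.Y g + W.a₁ * P.X g + W.a₃))) →
      P.ev τ r.1 = 0 ∧ P.ev τ r.2 = 0 := by
    rintro τ r rfl
    have hne := P.Y_ne (τ := τ) hg h2
    obtain ⟨a, ea⟩ := P.hom_apply τ g hg
    obtain ⟨c, ec⟩ := P.hom_apply τ (g + g) h2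
    rw [map_add, ea, Point.add_self_of_Y_ne hne] at ec
    obtain ⟨e1, e2⟩ := Point.some.inj ec
    rw [slope_of_Y_ne rfl hne] at e1 e2
    simp only [Affine.addY, Affine.negAddY] at e2
    rw [e1] at e2
    simp only [Affine.addX, Affine.negY, map_a₁, map_a₂, map_a₃, map_a₄] at e1 e2
    set D := 2 * P.ev τ (P.Y g) + P.ev τ W.a₁ * P.ev τ (P.X g) + P.ev τ W.a₃ with hD
    have hden : P.ev τ (P.Y g) - (-P.ev τ (P.Y g) - P.ev τ W.a₁ * P.ev τ (P.X g) - P.ev τ W.a₃)
        = D := by rw [hD]; ring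
    have hd : D ≠ 0 := by
      rw [← hden]
      exact sub_ne_zero.mpr hne
    rw [hden] at e1 e2
    simp only [map_sub, map_add, map_mul, map_pow, map_neg, map_ofNat, ← hD]
    clear_value D
    field_simp at e1 e2
    exact ⟨by linear_combination -e1, by linear_combination -e2⟩
  exact ⟨sub_eq_zero.mp (P.separates _ fun τ => (key τ _ rfl).1),
    sub_eq_zero.mp (P.separates _ fun τ => (key τ _ rfl).2)⟩

theorem point_add (hf : Function.Injective f) (g h : G) :
    P.point hf (g + h) = P.point hf g + P.point hf h := by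
  by_cases hg : g = 0
  · rw [hg, zero_add, P.point_zero, zero_add]
  by_cases hh : h = 0
  · rw [hh, add_zero, P.point_zero, add_zero]
  obtain ⟨τ⟩ := P.nonempty
  by_cases h2 : g = -h
  · subst h2
    obtain ⟨ex, ey⟩ := P.neg_coords hh
    rw [neg_add_cancel, P.point_zero, P.point_of_ne hf hh, P.point_of_ne hf hg]
    exact (Point.add_of_Y_eq (by rw [ex]) (by
      rw [ey, Affine.negY, map_sub, map_sub, map_neg, map_mul, map_a₁, map_a₃])).symm
  have hgh : g + h ≠ 0 := fun e => h2 (eq_neg_of_add_eq_zero_left e)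
  rw [P.point_of_ne hf hgh, P.point_of_ne hf hg, P.point_of_ne hf hh]
  by_cases h1 : g = h
  · subst h1
    have hy : f (P.Y g) ≠ (W.map f).toAffine.negY (f (P.X g)) (f (P.Y g)) := by
      intro e
      refine P.Y_ne (τ := τ) hg hgh ?_
      rw [Affine.negY, map_a₁, map_a₃, ← map_mul, ← map_neg, ← map_sub, ← map_sub] at e
      conv_lhs => rw [hf e]
      simp [Affine.negY]
    obtain ⟨i1, i2⟩ := P.add_double hg hgh
    have i1' := congrArg f i1
    have i2' := congrArg f i2
    simp only [map_add, map_sub, map_mul, map_pow, map_neg, map_ofNat] at i1' i2'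
    set D := 2 * f (P.Y g) + f W.a₁ * f (P.X g) + f W.a₃ with hD
    have hden : f (P.Y g) - (-f (P.Y g) - f W.a₁ * f (P.X g) - f W.a₃) = D := by rw [hD]; ring
    have hd : D ≠ 0 := by
      rw [← hden]
      simpa [Affine.negY] using sub_ne_zero.mpr hy
    have hsl : (W.map f).toAffine.slope (f (P.X g)) (f (P.X g)) (f (P.Y g)) (f (P.Y g))
        = (3 * f (P.X g) ^ 2 + 2 * f W.a₂ * f (P.X g) + f W.a₄ - f W.a₁ * f (P.Y g)) / D := by
      rw [slope_of_Y_ne rfl hy, Affine.negY, map_a₁, map_a₂, map_a₃, map_a₄, hden]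
    clear_value D
    have ex : (W.map f).toAffine.addX (f (P.X g)) (f (P.X g))
        ((W.map f).toAffine.slope (f (P.X g)) (f (P.X g)) (f (P.Y g)) (f (P.Y g)))
        = f (P.X (g + g)) := by
      rw [hsl]
      simp only [Affine.addX, map_a₁, map_a₂]
      field_simp
      linear_combination -i1'
    rw [Point.add_self_of_Y_ne hy]
    simp only [Point.some.injEq, ex, true_and]
    rw [Affine.addY, Affine.negAddY, ex, hsl]
    simp only [Affine.negY, map_a₁, map_a₃]
    field_simp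
    linear_combination i2'
  · have hne : f (P.X g) ≠ f (P.X h) := fun e => P.X_ne (τ := τ) hg hh h1 h2 (by rw [hf e])
    obtain ⟨i1, i2⟩ := P.add_chord hg hh h1 h2
    have i1' := congrArg f i1
    have i2' := congrArg f i2
    simp only [map_add, map_sub, map_mul, map_pow, map_neg] at i1' i2'
    have hd : f (P.X g) - f (P.X h) ≠ 0 := sub_ne_zero.mpr hne
    have ex : (W.map f).toAffine.addX (f (P.X g)) (f (P.X h))
        ((W.map f).toAffine.slope (f (P.X g)) (f (P.X h)) (f (P.Y g)) (f (P.Y h)))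
        = f (P.X (g + h)) := by
      rw [slope_of_X_ne hne]
      simp only [Affine.addX, map_a₁, map_a₂]
      field_simp
      linear_combination -i1'
    rw [Point.add_of_X_ne hne]
    simp only [Point.some.injEq, ex, true_and]
    rw [Affine.addY, Affine.negAddY, ex, slope_of_X_ne hne]
    simp only [Affine.negY, map_a₁, map_a₃]
    field_simp
    linear_combination i2'

/-- The homomorphism over `K`. -/
noncomputable def pointHom (hf : Function.Injective f) : G →+ (W.map f).toAffine.Point :=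
  AddMonoidHom.mk' (P.point hf) (P.point_add hf)

theorem pointHom_injective (hf : Function.Injective f) : Function.Injective (P.pointHom hf) := by
  rw [injective_iff_map_eq_zero]
  intro g hg
  by_contra hne
  change P.point hf g = 0 at hg
  rw [P.point_of_ne hf hne] at hg
  exact Point.some_ne_zero _ hg

end PointFamily

end Fermat.Agent.Carayol.Omega
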