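import Mathlib
import Fermat.Agent.Wp.QExp

/-!
# `℘` on `ℤτ + ℤ` as a sum over rows
-/

set_option autoImplicit false
set_option linter.unusedSimpArgs false

noncomputable section

open UpperHalfPlane hiding I
open Filter Topology Complex
open scoped PeriodPair Real

namespace Fermat.Agent.Carayol.Omega

open Fermat.Agent.Wp

/-- `∑ₙ (w + n)⁻²`. -/
def rowTwo (w : ℂ) : ℂ := ∑' n : ℤ, ((w + n) ^ 2)⁻¹

/-- `(2πi)² e/(1-e)²`. -/
def rowTwoClosed (w : ℂ) : ℂ := (2 * π * I) ^ 2 * (expTwoPi w / (1 - expTwoPi w) ^ 2)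

theorem summable_inv_sq (x : ℂ) : Summable fun n : ℤ => ((x + n) ^ 2)⁻¹ := by
  refine (EisensteinSeries.linear_right_summable x 1 (k := 2) le_rfl).congr fun n => ?_
  simp [zpow_ofNat]

theorem rowTwo_of_im_pos {w : ℂ} (hw : 0 < w.im) : rowTwo w = rowTwoClosed w := by
  have h := EisensteinSeries.qExpansion_identity (k := 1) le_rfl ⟨w, hw⟩
  have hr : ‖expTwoPi w‖ < 1 := by
    rw [norm_expTwoPi, Real.exp_lt_one_iff, neg_lt_zero]
    exact mul_pos Real.two_pi_pos hw
  simp only [one_div, Nat.reduceAdd, Nat.factorial_one, Nat.cast_one, div_one, pow_one] at h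
  rw [rowTwo, h, rowTwoClosed, show (-2 * π * I : ℂ) ^ 2 = (2 * π * I) ^ 2 by ring]
  congr 1
  exact (hasSum_coe_mul_geometric_of_norm_lt_one hr).tsum_eq

theorem rowTwo_neg (w : ℂ) : rowTwo (-w) = rowTwo w := by
  rw [rowTwo, rowTwo, ← (Equiv.neg ℤ).tsum_eq]
  refine tsum_congr fun n => ?_
  simp only [Equiv.neg_apply, Int.cast_neg]
  congr 1
  ring

theorem rowTwoClosed_neg (w : ℂ) : rowTwoClosed (-w) = rowTwoClosed w := by
  rw [rowTwoClosed, rowTwoClosed, expTwoPi_neg]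
  have h := expTwoPi_ne_zero w
  rcases eq_or_ne (expTwoPi w) 1 with h1 | h1
  · simp [h1]
  have h2 : 1 - expTwoPi w ≠ 0 := sub_ne_zero.mpr (Ne.symm h1)
  have h3 : expTwoPi w - 1 ≠ 0 := sub_ne_zero.mpr h1
  generalize expTwoPi w = e at *
  field_simp
  ring

theorem continuousAt_rowTwo {x : ℂ} (hx : ∀ n : ℤ, x + n ≠ 0) : ContinuousAt rowTwo x := by
  have hsum : Summable fun n : ℤ => (4 : ℝ) * ‖((x + n) ^ 2)⁻¹‖ :=
    ((summable_norm_iff (E := ℂ)).mpr (summable_inv_sq x)).mul_left 4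
  obtain ⟨δ, hδ, hd⟩ : ∃ δ > 0, ∀ n : ℤ, 2 * δ ≤ ‖x + n‖ := by
    have hc : IsClosed ((↑) '' (Set.univ : Set ℤ) : Set ℂ) := by
      simpa using Complex.isometry_intCast.isClosedEmbedding.isClosed_range
    obtain ⟨r, hr, hball⟩ := Metric.isOpen_iff.mp hc.isOpen_compl (-x) (by
      rintro ⟨n, -, hn⟩
      exact hx n (by rw [hn]; ring))
    refine ⟨r / 2, by positivity, fun n => ?_⟩
    by_contra hlt
    refine hball (a := (n : ℂ)) ?_ ⟨n, trivial, rfl⟩
    rw [mem_ball_iff_norm, sub_neg_eq_add, add_comm]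
    linarith
  have hle : ∀ (n : ℤ), ∀ w ∈ Metric.closedBall x δ, ‖x + n‖ ≤ 2 * ‖w + n‖ := fun n w hw => by
    have h1 : ‖x + n‖ - ‖w - x‖ ≤ ‖w + n‖ := by
      have := norm_sub_norm_le (x + n) (-(w - x))
      rwa [norm_neg, sub_neg_eq_add, show x + n + (w - x) = w + n by ring] at this
    linarith [mem_closedBall_iff_norm.mp hw, hd n]
  refine ContinuousOn.continuousAt (s := Metric.closedBall x δ)
    (continuousOn_tsum (fun n => ?_) hsum fun n w hw => ?_) (Metric.closedBall_mem_nhds x hδ)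
  · refine ContinuousOn.inv₀ (by fun_prop) fun w hw => pow_ne_zero _ fun h0 => ?_
    have h := hle n w hw
    rw [h0, norm_zero] at h
    linarith [hd n]
  · rw [norm_inv, norm_inv, norm_pow, norm_pow]
    have hpos : 0 < ‖x + n‖ := norm_pos_iff.mpr (hx n)
    have h3 : ‖x + n‖ ^ 2 ≤ 4 * ‖w + n‖ ^ 2 := by
      nlinarith [pow_le_pow_left₀ hpos.le (hle n w hw) 2]
    rw [← div_eq_mul_inv, le_div_iff₀ (by positivity), inv_mul_le_iff₀]
    · linarith
    · nlinarith [hpos, pow_pos hpos 2]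

theorem continuousAt_rowTwoClosed {x : ℂ} (hx : ∀ n : ℤ, x + n ≠ 0) :
    ContinuousAt rowTwoClosed x := by
  have hne : 1 - expTwoPi x ≠ 0 := sub_ne_zero.mpr fun h => by
    obtain ⟨n, hn⟩ := (expTwoPi_eq_one_iff x).mp h.symm
    exact hx (-n) (by simp [hn])
  have hc : Continuous expTwoPi := by unfold expTwoPi; fun_prop
  have := hc.continuousAt (x := x)
  unfold rowTwoClosed
  fun_prop (disch := exact pow_ne_zero _ hne)

/-- The closed formula off the integers. -/
theorem rowTwo_eq {w : ℂ} (hw : ∀ n : ℤ, w + n ≠ 0) : rowTwo w = rowTwoClosed w := by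
  rcases lt_trichotomy w.im 0 with h | h | h
  · have := rowTwo_of_im_pos (w := -w) (by simpa using h)
    rwa [rowTwo_neg, rowTwoClosed_neg] at this
  · have hl : Tendsto (fun t : ℝ => w + t * I) (𝓝[>] 0) (𝓝 w) := by
      have hc : Continuous fun t : ℝ => w + t * I := by fun_prop
      simpa using (hc.tendsto 0).mono_left nhdsWithin_le_nhds
    refine tendsto_nhds_unique ((continuousAt_rowTwo hw).tendsto.comp hl)
      (((continuousAt_rowTwoClosed hw).tendsto.comp hl).congr' ?_)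
    filter_upwards [self_mem_nhdsWithin] with t ht
    exact (rowTwo_of_im_pos (by simpa [h] using ht)).symm
  · exact rowTwo_of_im_pos h

theorem rowTwo_zero : rowTwo 0 = π ^ 2 / 3 := by
  have h := two_mul_riemannZeta_eq_tsum_int_inv_pow_of_even (k := 2) le_rfl even_two
  rw [Nat.cast_ofNat, riemannZeta_two] at h
  rw [rowTwo]
  simp only [zero_add]
  linear_combination -h

/-- `℘` summed row by row. -/
theorem hasSum_weierstrassP_rows (τ : ℍ) (z : ℂ) :
    HasSum (fun m : ℤ => rowTwo (z + m * τ) - rowTwo (m * τ)) (℘[pairTau τ] z) := by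
  have h := (pairTau τ).hasSum_weierstrassP z
  have h' := (((Equiv.prodCongr (Equiv.neg ℤ) (Equiv.neg ℤ)).trans
    (pairTau τ).latticeEquivProd.symm.toEquiv).hasSum_iff).mpr h
  have hf : (fun l : (pairTau τ).lattice => 1 / (z - l) ^ 2 - 1 / (l : ℂ) ^ 2) ∘
      ((Equiv.prodCongr (Equiv.neg ℤ) (Equiv.neg ℤ)).trans
        (pairTau τ).latticeEquivProd.symm.toEquiv)
      = fun mn : ℤ × ℤ =>
          ((z + mn.1 * τ + mn.2) ^ 2)⁻¹ - (((mn.1 : ℂ) * τ + mn.2) ^ 2)⁻¹ := by
    funext mn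
    simp only [Function.comp_apply, Equiv.trans_apply, LinearEquiv.coe_toEquiv,
      Equiv.prodCongr_apply, Prod.map, Equiv.neg_apply]
    rw [PeriodPair.latticeEquiv_symm_apply]
    simp only [pairTau, Int.cast_neg, one_div]
    congr 2 <;> ring
  rw [hf] at h'
  exact h'.prod_fiberwise fun m =>
    (summable_inv_sq (z + m * τ)).hasSum.sub (summable_inv_sq (m * τ)).hasSum

end Fermat.Agent.Carayol.Omega
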