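import Mathlib
import Fermat.Agent.Carayol.Omega.ChangeVar
import Fermat.Agent.Mazur.Small.TateInvariants

/-!
# Tate normal form of a curve at a point of order at least four
-/

set_option autoImplicit false
set_option linter.unusedSectionVars false

namespace Fermat.Agent.Carayol.Omega

open WeierstrassCurve WeierstrassCurve.Affine Fermat.Agent.Mazur.Small

variable {F : Type*} [Field F] (W : WeierstrassCurve F) {x y : F}

/-- The curve `y² + (1 - c) x y - b y = x³ - b x²`. -/
def tateCurve (b c : F) : WeierstrassCurve F := ⟨1 - c, -b, -b, 0, 0⟩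

/-- The change of coordinates bringing `(x, y)` to `(0, 0)` in Tate normal form. -/
def tateChange (h3 : tateA3 W.toAffine x y ≠ 0) (h2 : tateA2 W.toAffine x y ≠ 0) :
    VariableChange F :=
  ⟨Units.mk0 (tateA3 W.toAffine x y / tateA2 W.toAffine x y) (div_ne_zero h3 h2), x,
    tateLam W.toAffine x y, y⟩

theorem tateChange_smul (h3 : tateA3 W.toAffine x y ≠ 0) (h2 : tateA2 W.toAffine x y ≠ 0)
    (heq : W.toAffine.Equation x y) :
    tateChange W h3 h2 • W = tateCurve (tateB W.toAffine x y) (tateC W.toAffine x y) := by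
  have hlam : 3 * x ^ 2 + 2 * W.a₂ * x + W.a₄ - W.a₁ * y
      = tateLam W.toAffine x y * tateA3 W.toAffine x y := by
    rw [tateLam, div_mul_cancel₀ _ h3]
  have he := (Affine.equation_iff ..).mp heq
  obtain ⟨A3, hA3⟩ : ∃ a, tateA3 W.toAffine x y = a := ⟨_, rfl⟩
  obtain ⟨A2, hA2⟩ : ∃ a, tateA2 W.toAffine x y = a := ⟨_, rfl⟩
  obtain ⟨A1, hA1⟩ : ∃ a, tateA1 W.toAffine x y = a := ⟨_, rfl⟩
  obtain ⟨l, hl⟩ : ∃ a, tateLam W.toAffine x y = a := ⟨_, rfl⟩
  rw [hA3] at h3 hlam
  rw [hA2] at h2
  rw [hl] at hlam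
  have e3 : A3 = 2 * y + W.a₁ * x + W.a₃ := hA3.symm
  have e2 : A2 = 3 * x + W.a₂ - l * W.a₁ - l ^ 2 := by rw [← hA2, tateA2, hl]
  have e1 : A1 = W.a₁ + 2 * l := by rw [← hA1, tateA1, hl]
  have heq1 : (tateChange W (hA3 ▸ h3) (hA2 ▸ h2)).u = Units.mk0 (A3 / A2) (div_ne_zero h3 h2) := by
    simp only [tateChange, hA3, hA2]
  refine WeierstrassCurve.ext ?_ ?_ ?_ ?_ ?_ <;>
    simp only [variableChange_a₁, variableChange_a₂, variableChange_a₃, variableChange_a₄,
      variableChange_a₆, Units.val_inv_eq_inv_val, heq1, Units.val_mk0, tateCurve, tateB, tateC,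
      hA1, hA2, hA3, show (tateChange W (hA3 ▸ h3) (hA2 ▸ h2)).r = x from rfl,
      show (tateChange W (hA3 ▸ h3) (hA2 ▸ h2)).t = y from rfl,
      show (tateChange W (hA3 ▸ h3) (hA2 ▸ h2)).s = l from hl] <;>
    field_simp
  · linear_combination -A2 * e1
  · linear_combination -e2
  · linear_combination -e3
  · linear_combination A2 ^ 4 * (hlam + l * e3)
  · linear_combination -A2 ^ 6 * he

/-- The abscissa of a point in Tate normal coordinates at `(x, y)`. -/
def tateX (x y : F) (x' : F) : F :=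
  (x' - x) / (tateA3 W.toAffine x y / tateA2 W.toAffine x y) ^ 2

/-- The ordinate of a point in Tate normal coordinates at `(x, y)`. -/
def tateY (x y : F) (x' y' : F) : F :=
  (y' - y - tateLam W.toAffine x y * (x' - x)) / (tateA3 W.toAffine x y / tateA2 W.toAffine x y) ^ 3

variable [DecidableEq F] [W.IsElliptic]

/-- The isomorphism of groups of points with the Tate normal form. -/
noncomputable def toTate (h3 : tateA3 W.toAffine x y ≠ 0) (h2 : tateA2 W.toAffine x y ≠ 0) :
    W.toAffine.Point ≃+ (tateChange W h3 h2 • W).toAffine.Point :=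
  (pointEquiv (tateChange W h3 h2) W).symm

theorem toTate_some (h3 : tateA3 W.toAffine x y ≠ 0) (h2 : tateA2 W.toAffine x y ≠ 0)
    {x' y' : F} (h : W.toAffine.Nonsingular x' y') :
    ∃ h' : (tateChange W h3 h2 • W).toAffine.Nonsingular (tateX W x y x') (tateY W x y x' y'),
      toTate W h3 h2 (.some _ _ h) = .some _ _ h' :=
  ⟨_, rfl⟩

/-- A point of order at least four gives a Tate normal form. -/
theorem tate_ne_zero_of_order (h : W.toAffine.Nonsingular x y)
    (h2 : 2 • (Point.some _ _ h : W.toAffine.Point) ≠ 0)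
    (h3 : 3 • (Point.some _ _ h : W.toAffine.Point) ≠ 0) :
    tateA3 W.toAffine x y ≠ 0 ∧ tateA2 W.toAffine x y ≠ 0 := by
  have hy : y ≠ W.toAffine.negY x y := fun e => h2 (by
    rw [two_nsmul]; exact Point.add_self_of_Y_eq e)
  have hA3 : tateA3 W.toAffine x y ≠ 0 := fun e => hy (by
    simp only [tateA3] at e; rw [Affine.negY]; linear_combination e)
  refine ⟨hA3, fun e => h3 ?_⟩
  have hslope : W.toAffine.slope x x y y = tateLam W.toAffine x y := by
    rw [slope_of_Y_ne rfl hy, tateLam]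
    congr 1
    simp only [Affine.negY, tateA3]; ring
  have hX : W.toAffine.addX x x (W.toAffine.slope x x y y) = x := by
    rw [hslope]; simp only [Affine.addX, tateA2] at e ⊢; linear_combination -e
  rw [succ_nsmul, two_nsmul, Point.add_self_of_Y_ne hy, ← eq_neg_iff_add_eq_zero, Point.neg_some]
  simp only [Point.some.injEq]
  refine ⟨hX, ?_⟩
  rw [Affine.addY, Affine.negAddY, hX]
  simp

end Fermat.Agent.Carayol.Omega
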