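import Fermat.Agent.Carayol.Omega.Functions
import Fermat.Agent.Carayol.Omega.PointFamily
import Fermat.Agent.Carayol.Omega.TateForm
import Fermat.Prelude.Def_ModularCurve_X0ModL
import Fermat.Prelude.Thm_ModularCurve_coeffMap_qExpand

/-!
# The ring of functions with expansions over a field, and its expansion map

For an embedding `ι : K → ℂ` and a root of unity `ζ` over `exp (2πi/n)`, the torsion coordinates and
their Tate normal parameters are functions whose expansions have coefficients in `K`.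
-/

set_option autoImplicit false
set_option linter.unusedSectionVars false

noncomputable section

open UpperHalfPlane hiding I
open Complex Function
open scoped Manifold MatrixGroups PeriodPair Real

namespace Fermat.Agent.Carayol.Omega

open Fermat.Agent.ModFun Fermat.Agent.Mazur.Small
open ModularCurve (coeffMap qExpand jqModC)

theorem coeffMap_injective_of_field {K L : Type*} [Field K] [CommRing L] [Nontrivial L]
    (f : K →+* L) : Function.Injective (coeffMap f) := fun x y h =>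
  HahnSeries.ext (funext fun k => f.injective (by
    rw [← ModularCurve.coeffMap_coeff, h, ModularCurve.coeffMap_coeff]))

theorem coeffMap_ofPowerSeries' {R S : Type*} [CommRing R] [CommRing S] (f : R →+* S)
    (p : PowerSeries R) :
    coeffMap f (HahnSeries.ofPowerSeries ℤ R p) = HahnSeries.ofPowerSeries ℤ S (p.map f) := by
  ext k
  rcases lt_or_ge k 0 with hk | hk
  · simp [ModularCurve.ofPowerSeries_coeff_of_neg _ hk]
  · lift k to ℕ using hk
    simp

/-- An embedding of the coefficient field together with the chosen root of unity. -/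
structure Setup (n : ℕ) (K : Type*) [Field K] where
  /-- The embedding. -/
  ι : K →+* ℂ
  /-- The root of unity. -/
  ζ : K
  map_ζ : ι ζ = zetaC n

namespace Setup

variable {n : ℕ} [NeZero n] {K : Type*} [Field K] (E : Setup n K)

theorem isPrimitiveRoot (E : Setup n K) : IsPrimitiveRoot E.ζ n :=
  IsPrimitiveRoot.of_map_of_injective (f := E.ι) (E.map_ζ ▸ isPrimitiveRoot_zetaC n)
    E.ι.injective

/-- Functions in `CuspAlg n` whose expansion has coefficients in `K`. -/
def R : Subring (ℍ → ℂ) :=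
  (((coeffMap E.ι).fieldRange.toSubring).comap (laurentExp n).toRingHom).map
    (CuspAlg n).val.toRingHom

theorem mem_R {f : ℍ → ℂ} :
    f ∈ E.R ↔ ∃ h : f ∈ CuspAlg n, ∃ s, coeffMap E.ι s = laurentExp n ⟨f, h⟩ := by
  constructor
  · rintro ⟨g, ⟨s, hs⟩, rfl⟩
    exact ⟨g.2, s, hs⟩
  · rintro ⟨h, s, hs⟩
    exact ⟨⟨f, h⟩, ⟨s, hs⟩, rfl⟩

theorem mem_CuspAlg' (f : E.R) : (f : ℍ → ℂ) ∈ CuspAlg n := (E.mem_R.mp f.2).1

/-- The inclusion in `CuspAlg n`. -/
def incl : E.R →+* CuspAlg n where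
  toFun f := ⟨f, E.mem_CuspAlg' f⟩
  map_one' := rfl
  map_mul' _ _ := rfl
  map_zero' := rfl
  map_add' _ _ := rfl

theorem exists_series (f : E.R) : ∃ s, coeffMap E.ι s = laurentExp n (E.incl f) :=
  (E.mem_R.mp f.2).2

/-- The expansion with coefficients in `K`. -/
def toSer : E.R →+* LaurentSeries K where
  toFun f := (E.exists_series f).choose
  map_one' := coeffMap_injective_of_field E.ι (by
    rw [(E.exists_series 1).choose_spec, map_one, map_one, map_one])
  map_mul' f g := coeffMap_injective_of_field E.ι (by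
    rw [(E.exists_series (f * g)).choose_spec, map_mul, map_mul, map_mul,
      (E.exists_series f).choose_spec, (E.exists_series g).choose_spec])
  map_zero' := coeffMap_injective_of_field E.ι (by
    rw [(E.exists_series 0).choose_spec, map_zero, map_zero, map_zero])
  map_add' f g := coeffMap_injective_of_field E.ι (by
    rw [(E.exists_series (f + g)).choose_spec, map_add, map_add, map_add,
      (E.exists_series f).choose_spec, (E.exists_series g).choose_spec])

theorem coeffMap_toSer (f : E.R) : coeffMap E.ι (E.toSer f) = laurentExp n (E.incl f) :=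
  (E.exists_series f).choose_spec

theorem toSer_injective : Function.Injective E.toSer := fun f g h => by
  have := congrArg (coeffMap E.ι) h
  rw [E.coeffMap_toSer, E.coeffMap_toSer] at this
  have h' := congrArg Subtype.val (laurentExp_injective n this)
  exact Subtype.ext h'

theorem toSer_eq {f : E.R} {s : LaurentSeries K}
    (h : laurentExp n (E.incl f) = coeffMap E.ι s) : E.toSer f = s :=
  coeffMap_injective_of_field E.ι ((E.coeffMap_toSer f).trans h)

/-- Evaluation at `τ`. -/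
def ev (τ : ℍ) : E.R →+* ℂ := (Pi.evalRingHom _ τ).comp E.R.subtype

theorem ev_apply (τ : ℍ) (f : E.R) : E.ev τ f = (f : ℍ → ℂ) τ := rfl

theorem separates {f : E.R} (h : ∀ τ, E.ev τ f = 0) : f = 0 := Subtype.ext (funext h)

theorem isUnit_of_ne_zero {f : E.R} (h : ∀ τ, E.ev τ f ≠ 0) : IsUnit f := by
  have hi := inv_mem_CuspAlg (f := E.incl f) h
  have hmul : E.incl f * ⟨_, hi⟩ = 1 := Subtype.ext (funext fun τ => mul_inv_cancel₀ (h τ))
  have he : laurentExp n ⟨_, hi⟩ = (laurentExp n (E.incl f))⁻¹ :=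
    eq_inv_of_mul_eq_one_right (by rw [← map_mul, hmul, map_one])
  refine IsUnit.of_mul_eq_one (⟨_, E.mem_R.mpr ⟨hi, (E.toSer f)⁻¹, ?_⟩⟩ : E.R)
    (Subtype.ext (funext fun τ => mul_inv_cancel₀ (h τ)))
  rw [map_inv₀, E.coeffMap_toSer, he]

theorem const_mem (c : K) : (fun _ => E.ι c) ∈ E.R :=
  E.mem_R.mpr ⟨(CuspAlg n).algebraMap_mem (E.ι c), HahnSeries.C c, by
    rw [show (⟨fun _ => E.ι c, (CuspAlg n).algebraMap_mem (E.ι c)⟩ : CuspAlg n)
      = algebraMap ℂ (CuspAlg n) (E.ι c) from rfl, AlgHom.commutes, algebraMap_laurent_eq_C,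
      HahnSeries.C_apply, HahnSeries.C_apply, ModularCurve.coeffMap_single]⟩

/-- Constants. -/
def const : K →+* E.R where
  toFun c := ⟨_, E.const_mem c⟩
  map_one' := Subtype.ext (funext fun _ => map_one E.ι)
  map_mul' a b := Subtype.ext (funext fun _ => map_mul E.ι a b)
  map_zero' := Subtype.ext (funext fun _ => map_zero E.ι)
  map_add' a b := Subtype.ext (funext fun _ => map_add E.ι a b)

theorem toSer_const (c : K) : E.toSer (E.const c) = HahnSeries.C c := E.toSer_eq (by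
  rw [show E.incl (E.const c) = algebraMap ℂ (CuspAlg n) (E.ι c) from rfl, AlgHom.commutes,
    algebraMap_laurent_eq_C, HahnSeries.C_apply, HahnSeries.C_apply,
    ModularCurve.coeffMap_single])

/-- The expansion in `exp (2πiτ/n)` of a function of period one. -/
theorem exists_qExpand {g : ℍ → ℂ} (hg : g ∈ CuspAlg 1) {s : LaurentSeries ℂ}
    (hs : laurentExp 1 ⟨g, hg⟩ = s) :
    ∃ h : g ∈ CuspAlg n, laurentExp n ⟨g, h⟩ = qExpand ℂ n s := by
  suffices H : ∀ m : ℕ, m = n * 1 → ∀ [NeZero m],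
      ∃ h : g ∈ CuspAlg m, laurentExp m ⟨g, h⟩ = qExpand ℂ n s from H n (mul_one n).symm
  rintro _ rfl _
  refine ⟨CuspAlg_le_mul n (NeZero.ne n) hg, ?_⟩
  rw [← hs, ← laurentExp_mul]
  rfl

theorem mem_R_of_rat [CharZero K] {g : ℍ → ℂ} (hg : g ∈ BddAlg 1)
    (hq : ∀ m, ∃ r : ℚ, (qExpansion 1 g).coeff m = r) :
    ∃ (h : g ∈ E.R) (s : LaurentSeries ℚ),
      E.toSer ⟨g, h⟩ = coeffMap (algebraMap ℚ K) s := by
  choose r hr using hq
  set s : LaurentSeries ℚ := qExpand ℚ n (HahnSeries.ofPowerSeries ℤ ℚ (PowerSeries.mk r))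
  have hs : laurentExp 1 ⟨g, BddAlg_le_CuspAlg 1 hg⟩
      = HahnSeries.ofPowerSeries ℤ ℂ ((PowerSeries.mk r).map (algebraMap ℚ ℂ)) := by
    rw [show (⟨g, BddAlg_le_CuspAlg 1 hg⟩ : CuspAlg 1)
      = Subalgebra.inclusion (BddAlg_le_CuspAlg 1) ⟨g, hg⟩ from rfl, laurentExp_of_bdd,
      qExpBdd_apply]
    congr 1
    ext m
    simp [hr]
  obtain ⟨h, he⟩ := exists_qExpand (n := n) (BddAlg_le_CuspAlg 1 hg) hs
  have e : laurentExp n ⟨g, h⟩ = coeffMap E.ι (coeffMap (algebraMap ℚ K) s) := by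
    rw [ModularCurve.coeffMap_coeffMap, he, ModularCurve.coeffMap_qExpand,
      coeffMap_ofPowerSeries']
    rw [RingHom.ext_rat (E.ι.comp (algebraMap ℚ K)) (algebraMap ℚ ℂ)]
  exact ⟨E.mem_R.mpr ⟨h, _, e.symm⟩, s, E.toSer_eq e⟩

theorem fA_rat [CharZero K] : ∃ (h : fA ∈ E.R) (s : LaurentSeries ℚ),
    E.toSer ⟨fA, h⟩ = coeffMap (algebraMap ℚ K) s := by
  have hb : fA ∈ BddAlg 1 := by
    have h2 := Subalgebra.smul_mem _ E₄_mem_BddAlg (-1 / 48 : ℂ)
    convert h2 using 1
    funext τ; simp [fA]; ring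
  refine E.mem_R_of_rat hb fun m => ?_
  refine ⟨(-1 / 48 : ℚ) * (ModularCurve.eisenstein4.coeff m : ℤ), ?_⟩
  have e : fA = (-1 / 48 : ℂ) • (ModularForm.E₄ : ℍ → ℂ) := by funext τ; simp [fA]; ring
  have ha := analyticAt_cuspFunction 1 E₄_mem_BddAlg
  rw [e, show ((1 : ℝ)) = ((1 : ℕ) : ℝ) from Nat.cast_one.symm, qExpansion_smul ha,
    Nat.cast_one, PowerSeries.coeff_smul, qExpansion_E₄, PowerSeries.coeff_map]
  simp

theorem fB_rat [CharZero K] : ∃ (h : fB ∈ E.R) (s : LaurentSeries ℚ),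
    E.toSer ⟨fB, h⟩ = coeffMap (algebraMap ℚ K) s := by
  have hb : fB ∈ BddAlg 1 := by
    have h2 := Subalgebra.smul_mem _ E₆_mem_BddAlg (1 / 864 : ℂ)
    convert h2 using 1
    funext τ; simp [fB]; ring
  refine E.mem_R_of_rat hb fun m => ?_
  refine ⟨(1 / 864 : ℚ) * (if m = 0 then 1 else -(2 * 6 / bernoulli 6 : ℚ)
    * (ArithmeticFunction.sigma (6 - 1) m : ℕ)), ?_⟩
  have e : fB = (1 / 864 : ℂ) • (ModularForm.E₆ : ℍ → ℂ) := by funext τ; simp [fB]; ring
  have ha := analyticAt_cuspFunction 1 E₆_mem_BddAlg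
  rw [e, show ((1 : ℝ)) = ((1 : ℕ) : ℝ) from Nat.cast_one.symm, qExpansion_smul ha,
    Nat.cast_one, PowerSeries.coeff_smul, ModularForm.E₆,
    EisensteinSeries.E_qExpansion_coeff _ ⟨3, rfl⟩]
  push_cast
  split_ifs <;> simp

theorem fX_rat {v : ZMod n × ZMod n} (hv : v ≠ 0) :
    ∃ h : fX n v ∈ CuspAlg n, laurentExp n ⟨_, h⟩
      = coeffMap E.ι (HahnSeries.ofPowerSeries ℤ K (xSeries n E.ζ v)) := by
  refine ⟨fX_mem v, ?_⟩
  rw [laurentExp_eq_of_hasSum (⟨_, fX_mem v⟩ : CuspAlg n) (n := 0)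
    (c := fun k => (xSeries n (zetaC n) v).coeff k) fun τ => by simpa using hasSum_fX hv τ]
  rw [coeffMap_ofPowerSeries', map_xSeries, E.map_ζ]
  simp only [Nat.cast_zero, neg_zero]
  rw [show (HahnSeries.single (0 : ℤ) (1 : ℂ)) = 1 from rfl, one_mul]
  congr 1
  ext k
  simp

theorem fY_rat {v : ZMod n × ZMod n} (hv : v ≠ 0) :
    ∃ h : fY n v ∈ CuspAlg n, laurentExp n ⟨_, h⟩
      = coeffMap E.ι (HahnSeries.ofPowerSeries ℤ K (ySeries n E.ζ v)) := by
  refine ⟨fY_mem v, ?_⟩
  rw [laurentExp_eq_of_hasSum (⟨_, fY_mem v⟩ : CuspAlg n) (n := 0)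
    (c := fun k => (ySeries n (zetaC n) v).coeff k) fun τ => by simpa using hasSum_fY hv τ]
  rw [coeffMap_ofPowerSeries', map_ySeries, E.map_ζ]
  simp only [Nat.cast_zero, neg_zero]
  rw [show (HahnSeries.single (0 : ℤ) (1 : ℂ)) = 1 from rfl, one_mul]
  congr 1
  ext k
  simp

theorem fX_mem_R (v : ZMod n × ZMod n) : fX n v ∈ E.R := by
  rcases eq_or_ne v 0 with rfl | hv
  · rw [fX_zero]; exact zero_mem _
  · obtain ⟨h, e⟩ := E.fX_rat hv
    exact E.mem_R.mpr ⟨h, _, e.symm⟩

theorem fY_mem_R (v : ZMod n × ZMod n) : fY n v ∈ E.R := by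
  rcases eq_or_ne v 0 with rfl | hv
  · rw [fY_zero]; exact zero_mem _
  · obtain ⟨h, e⟩ := E.fY_rat hv
    exact E.mem_R.mpr ⟨h, _, e.symm⟩

/-- The abscissa as an element of `R`. -/
def rX (v : ZMod n × ZMod n) : E.R := ⟨fX n v, E.fX_mem_R v⟩

/-- The ordinate as an element of `R`. -/
def rY (v : ZMod n × ZMod n) : E.R := ⟨fY n v, E.fY_mem_R v⟩

theorem toSer_rX {v : ZMod n × ZMod n} (hv : v ≠ 0) :
    E.toSer (E.rX v) = HahnSeries.ofPowerSeries ℤ K (xSeries n E.ζ v) :=
  E.toSer_eq (E.fX_rat hv).choose_spec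

theorem toSer_rY {v : ZMod n × ZMod n} (hv : v ≠ 0) :
    E.toSer (E.rY v) = HahnSeries.ofPowerSeries ℤ K (ySeries n E.ζ v) :=
  E.toSer_eq (E.fY_rat hv).choose_spec

theorem toSer_rX_zero : E.toSer (E.rX 0) = 0 := by
  rw [show E.rX 0 = 0 from Subtype.ext fX_zero, map_zero]

theorem toSer_rY_zero : E.toSer (E.rY 0) = 0 := by
  rw [show E.rY 0 = 0 from Subtype.ext fY_zero, map_zero]

variable [CharZero K]

/-- The coefficient `a₄` of the short model. -/
def rA : E.R := ⟨fA, E.fA_rat.1⟩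

/-- The coefficient `a₆` of the short model. -/
def rB : E.R := ⟨fB, E.fB_rat.1⟩

/-- The short model over `R`. -/
def curve : WeierstrassCurve E.R := ⟨0, 0, 0, E.rA, E.rB⟩

theorem map_curve_ev (τ : ℍ) : E.curve.map (E.ev τ) = curveAt τ := by
  apply WeierstrassCurve.ext <;> simp [curve, curveAt] <;> rfl

/-- The pointwise torsion homomorphisms. -/
def family [DecidableEq ℂ] : PointFamily E.curve (ZMod n × ZMod n) ℍ ℂ where
  X := E.rX
  Y := E.rY
  ev := E.ev
  separates _ h := E.separates h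
  hom τ := torsHom τ
  hom_injective τ := torsHom_injective τ
  hom_apply τ _ hg := torsHom_apply τ hg
  Δ_ne τ h := curveAt_Δ_ne τ (by rw [← E.map_curve_ev τ, WeierstrassCurve.map_Δ, h])
  nonempty := ⟨UpperHalfPlane.I⟩

end Setup

end Fermat.Agent.Carayol.Omega
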